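import Mathlib

/-!
# G1-IG, abstract core: the decomposition group of a prime is everything

`G` acts on a commutative ring `B`, `Γ ≤ H ≤ G`, `Γ` of finite index acting trivially, `Q` a prime
of `B`.  If `Q` and all its translates have the same contraction to `B ^ H`, if `T` stabilises `Q`,
if `β T β⁻¹ ∈ Γ T ^ k` for `β ∈ H` and if the conjugates of `T` generate `G`, then `G`
stabilises `Q`.
-/

set_option autoImplicit false

namespace Fermat.Agent.G1.IG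

section Abs

variable {G B : Type*} [Group G] [CommRing B] [MulSemiringAction G B]

/-- the stabiliser of the ideal `Q`. -/
def stab (G : Type*) {B : Type*} [Group G] [CommRing B] [MulSemiringAction G B] (Q : Ideal B) :
    Subgroup G where
  carrier := {g | ∀ f : B, g • f ∈ Q ↔ f ∈ Q}
  one_mem' := fun f => by rw [one_smul]
  mul_mem' := fun {a b} ha hb f => by rw [mul_smul, ha, hb]
  inv_mem' := fun {a} ha f => by rw [← ha (a⁻¹ • f), smul_inv_smul]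

theorem mem_stab {Q : Ideal B} {g : G} : g ∈ stab G Q ↔ ∀ f : B, g • f ∈ Q ↔ f ∈ Q := Iff.rfl

theorem Abs_le_stab (Γ : Subgroup G) (hΓ : ∀ γ ∈ Γ, ∀ f : B, γ • f = f) (Q : Ideal B) :
    Γ ≤ stab G Q := fun γ hγ f => by rw [hΓ γ hγ]

/-- an element of finite order modulo `Γ` which maps `Q` into `Q` stabilises `Q`. -/
theorem Abs_mem_stab_of_forall (Γ : Subgroup G) [Γ.FiniteIndex]
    (hΓ : ∀ γ ∈ Γ, ∀ f : B, γ • f = f) (Q : Ideal B) {h : G} (hh : ∀ f ∈ Q, h • f ∈ Q) :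
    h ∈ stab G Q := by
  obtain ⟨n, hn, -, hmem⟩ := Subgroup.exists_pow_mem_of_index_ne_zero
    (Subgroup.FiniteIndex.index_ne_zero (H := Γ)) h
  have hpow : ∀ k : ℕ, ∀ f ∈ Q, h ^ k • f ∈ Q := by
    intro k
    induction k with
    | zero => intro f hf; rwa [pow_zero, one_smul]
    | succ k ih => intro f hf; rw [pow_succ, mul_smul]; exact ih _ (hh f hf)
  intro f
  refine ⟨fun hf => ?_, hh f⟩
  have h1 := hpow (n - 1) _ hf
  rwa [← mul_smul, ← pow_succ, Nat.sub_add_cancel hn, hΓ _ hmem] at h1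

/-- `(g * γ) • f = g • f`. -/
theorem Abs_out_smul (Γ : Subgroup G) (hΓ : ∀ γ ∈ Γ, ∀ f : B, γ • f = f) (g : G) (f : B) :
    ((g : G ⧸ Γ).out) • f = g • f := by
  obtain ⟨γ, hγ⟩ := QuotientGroup.mk_out_eq_mul Γ g
  rw [hγ, mul_smul, hΓ γ γ.2]

theorem Abs_out_mem_iff (Γ H : Subgroup G) (hΓH : Γ ≤ H) (g : G) :
    (g : G ⧸ Γ).out ∈ H ↔ g ∈ H := by
  obtain ⟨γ, hγ⟩ := QuotientGroup.mk_out_eq_mul Γ g
  rw [hγ]
  exact H.mul_mem_cancel_right (hΓH γ.2)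

open Classical in
/-- the norm from `B` to `B ^ H`. -/
noncomputable def nm (Γ H : Subgroup G) [Γ.FiniteIndex] (f : B) : B :=
  let _ := Γ.fintypeQuotientOfFiniteIndex
  ∏ x ∈ (Finset.univ.filter fun x : G ⧸ Γ => x.out ∈ H), x.out • f

theorem Abs_smul_nm (Γ H : Subgroup G) [Γ.FiniteIndex] (hΓH : Γ ≤ H)
    (hΓ : ∀ γ ∈ Γ, ∀ f : B, γ • f = f) (f : B) {β : G} (hβ : β ∈ H) :
    β • nm Γ H f = nm Γ H f := by
  classical
  let _ := Γ.fintypeQuotientOfFiniteIndex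
  unfold nm
  rw [Finset.smul_prod']
  refine Finset.prod_equiv (MulAction.toPerm β) ?_ ?_
  · intro x
    simp only [Finset.mem_filter, Finset.mem_univ, true_and, MulAction.toPerm_apply]
    have hx : β • x = ((β * x.out : G) : G ⧸ Γ) := by
      conv_lhs => rw [← QuotientGroup.out_eq' x]
      rfl
    rw [hx, Abs_out_mem_iff Γ H hΓH, H.mul_mem_cancel_left hβ]
  · intro x _
    have hx : β • x = ((β * x.out : G) : G ⧸ Γ) := by
      conv_lhs => rw [← QuotientGroup.out_eq' x]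
      rfl
    rw [MulAction.toPerm_apply, hx, Abs_out_smul Γ hΓ, mul_smul]

theorem Abs_dvd_nm (Γ H : Subgroup G) [Γ.FiniteIndex] (hΓH : Γ ≤ H)
    (hΓ : ∀ γ ∈ Γ, ∀ f : B, γ • f = f) (f : B) : f ∣ nm Γ H f := by
  classical
  let _ := Γ.fintypeQuotientOfFiniteIndex
  unfold nm
  have h1 : ((1 : G) : G ⧸ Γ) ∈ (Finset.univ.filter fun x : G ⧸ Γ => x.out ∈ H) := by
    simp only [Finset.mem_filter, Finset.mem_univ, true_and]
    rw [Abs_out_mem_iff Γ H hΓH]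
    exact H.one_mem
  have h2 := Finset.dvd_prod_of_mem (fun x : G ⧸ Γ => x.out • f) h1
  simp only [Abs_out_smul Γ hΓ, one_smul] at h2
  exact h2

theorem Abs_exists_of_nm_mem (Γ H : Subgroup G) [Γ.FiniteIndex] (Q : Ideal B) [hQ : Q.IsPrime]
    {f : B} (hf : nm Γ H f ∈ Q) : ∃ x : G ⧸ Γ, x.out ∈ H ∧ x.out • f ∈ Q := by
  classical
  let _ := Γ.fintypeQuotientOfFiniteIndex
  unfold nm at hf
  rw [hQ.prod_mem_iff] at hf
  obtain ⟨x, hx, hxf⟩ := hf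
  simp only [Finset.mem_filter, Finset.mem_univ, true_and] at hx
  exact ⟨x, hx, hxf⟩

/-- `G = D H`. -/
theorem Abs_exists_mul_mem_stab (Γ H : Subgroup G) [Γ.FiniteIndex] (hΓH : Γ ≤ H)
    (hΓ : ∀ γ ∈ Γ, ∀ f : B, γ • f = f) (Q : Ideal B) [hQ : Q.IsPrime]
    (hH : ∀ f : B, (∀ β ∈ H, β • f = f) → ∀ g : G, (g • f ∈ Q ↔ f ∈ Q)) (g : G) :
    ∃ β ∈ H, β * g⁻¹ ∈ stab G Q := by
  classical
  let _ := Γ.fintypeQuotientOfFiniteIndex
  have hprime : ∀ a : G, (Q.comap (MulSemiringAction.toRingHom G B a)).IsPrime := fun a =>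
    Ideal.comap_isPrime _ _
  have hsub : ((Q.comap (MulSemiringAction.toRingHom G B g) : Ideal B) : Set B) ⊆
      ⋃ x ∈ ((Finset.univ.filter fun x : G ⧸ Γ => x.out ∈ H : Finset (G ⧸ Γ)) : Set (G ⧸ Γ)),
        ((Q.comap (MulSemiringAction.toRingHom G B x.out) : Ideal B) : Set B) := by
    intro f hf
    have hf' : g • f ∈ Q := hf
    have h1 : g • nm Γ H f ∈ Q := by
      obtain ⟨c, hc⟩ := Abs_dvd_nm Γ H hΓH hΓ f
      rw [hc, smul_mul']
      exact Q.mul_mem_right _ hf'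
    rw [hH _ (fun β hβ => Abs_smul_nm Γ H hΓH hΓ f hβ)] at h1
    obtain ⟨x, hx, hxf⟩ := Abs_exists_of_nm_mem Γ H Q h1
    refine Set.mem_biUnion (x := x) ?_ hxf
    simpa using hx
  rw [Ideal.subset_union_prime ((1 : G) : G ⧸ Γ) ((1 : G) : G ⧸ Γ) (fun x _ _ _ => hprime x.out)] at hsub
  obtain ⟨x, hx, hle⟩ := hsub
  simp only [Finset.mem_filter, Finset.mem_univ, true_and] at hx
  refine ⟨x.out, hx, Abs_mem_stab_of_forall Γ hΓ Q fun f hf => ?_⟩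
  rw [mul_smul]
  refine hle (?_ : g • g⁻¹ • f ∈ Q)
  rwa [smul_inv_smul]

/-- **abstract core of G1-IG.** -/
theorem stab_eq_top (Γ H : Subgroup G) [Γ.FiniteIndex] (hΓH : Γ ≤ H)
    (hΓ : ∀ γ ∈ Γ, ∀ f : B, γ • f = f) (Q : Ideal B) [hQ : Q.IsPrime]
    (T : G) (hT : ∀ f ∈ Q, T • f ∈ Q)
    (hH : ∀ f : B, (∀ β ∈ H, β • f = f) → ∀ g : G, (g • f ∈ Q ↔ f ∈ Q))
    (hconj : ∀ β ∈ H, ∃ k : ℤ, (β * T * β⁻¹) * (T ^ k)⁻¹ ∈ Γ)
    (hgen : Subgroup.normalClosure {T} = ⊤) (g : G) (f : B) : g • f ∈ Q ↔ f ∈ Q := by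
  have hTD : T ∈ stab G Q := Abs_mem_stab_of_forall Γ hΓ Q hT
  have hΓD := Abs_le_stab Γ hΓ Q
  have hle : Subgroup.normalClosure {T} ≤ stab G Q := by
    unfold Subgroup.normalClosure
    rw [Subgroup.closure_le]
    intro y hy
    rw [Group.mem_conjugatesOfSet_iff] at hy
    obtain ⟨a, ha, hay⟩ := hy
    rw [Set.mem_singleton_iff] at ha
    subst ha
    obtain ⟨c, rfl⟩ := isConj_iff.1 hay
    obtain ⟨β, hβ, hd⟩ := Abs_exists_mul_mem_stab Γ H hΓH hΓ Q hH c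
    obtain ⟨k, hk⟩ := hconj β hβ
    have h1 : β * a * β⁻¹ ∈ stab G Q := by
      have := (stab G Q).mul_mem (hΓD hk) ((stab G Q).zpow_mem hTD k)
      rwa [inv_mul_cancel_right] at this
    have h2 : c * a * c⁻¹ = (β * c⁻¹)⁻¹ * (β * a * β⁻¹) * (β * c⁻¹) := by group
    change c * a * c⁻¹ ∈ stab G Q
    rw [h2]
    exact (stab G Q).mul_mem ((stab G Q).mul_mem ((stab G Q).inv_mem hd) h1) hd
  rw [hgen] at hle
  exact hle (Subgroup.mem_top g) f

end Abs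

end Fermat.Agent.G1.IG
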