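import Fermat.Agent.G1.IG.Ring

/-!
# G1-IG, part (iv), file 1: conjugates of an `H`-invariant element of `BB M O`, its characteristic
polynomial over `O[j]` and the Lagrange interpolation polynomials
-/

set_option autoImplicit false

open UpperHalfPlane CongruenceSubgroup ModularCurve Polynomial
open scoped MatrixGroups Manifold

namespace Fermat.Agent.G1.IG

open Fermat.Agent.S28

noncomputable section

attribute [local instance] Subgroup.fintypeQuotientOfFiniteIndex

open Classical in
section

variable {M : ℕ} [NeZero M] {O : Subring ℂ}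

/-- INTERFACE (proved in `Qep0.lean` as `exists_evP_of_invariant`): the `SL₂(ℤ)`-invariant elements
of `BB M O` are the polynomials in `j` with coefficients in `O`. -/
def InvPoly (M : ℕ) [NeZero M] (O : Subring ℂ) : Prop :=
  ∀ p : BB M O, (∀ g : SL(2, ℤ), g • p = p) → ∃ P : O[X], p = evP O (jBB M O) P

theorem serHom_evP (γ : SL(2, ℤ)) (P : O[X]) :
    serHom M O γ (evP O (jBB M O) P) = evP O (JN O M) P := by
  have hc : ∀ a : O, serHom M O γ (algebraMap O (BB M O) a) =
      algebraMap O (LaurentSeries O) (RingHom.id O a) := by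
    intro a
    rw [algebraMap_laurent_eq_single]
    rfl
  have h := map_evP (RingHom.id O) (serHom M O γ) hc (jBB M O) P
  rw [Polynomial.map_id] at h
  exact h

theorem e_evP {κ : Type*} [CommRing κ] (res : O →+* κ) (γ : SL(2, ℤ)) (P : O[X]) :
    e res γ (evP O (jBB M O) P) = evP κ (JN κ M) (P.map res) := by
  have hc : ∀ a : O, e res γ (algebraMap O (BB M O) a) =
      algebraMap κ (LaurentSeries κ) (res a) := by
    intro a
    rw [e_algebraMap, algebraMap_laurent_eq_single]
    rfl
  have h := map_evP res (e res γ) hc (jBB M O) P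
  rw [e_jBB] at h
  exact h

theorem smul_evP (g : SL(2, ℤ)) (P : O[X]) : g • evP O (jBB M O) P = evP O (jBB M O) P := by
  have hc : ∀ a : O, MulSemiringAction.toRingHom SL(2, ℤ) (BB M O) g (algebraMap O (BB M O) a) =
      algebraMap O (BB M O) (RingHom.id O a) := fun a => smul_algebraMap g a
  have h := map_evP (RingHom.id O) (MulSemiringAction.toRingHom SL(2, ℤ) (BB M O) g) hc
    (jBB M O) P
  rw [Polynomial.map_id, MulSemiringAction.toRingHom_apply, MulSemiringAction.toRingHom_apply,
    smul_jBB] at h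
  exact h

variable (H : Subgroup SL(2, ℤ))

/-- the conjugate `g • v` (`g ∈ c`) of an `H`-invariant element. -/
def conj (v : BB M O) (c : SL(2, ℤ) ⧸ H) : BB M O := c.out • v

variable {H}

theorem smul_eq_conj {v : BB M O} (hv : ∀ h ∈ H, h • v = v) (g : SL(2, ℤ)) :
    g • v = conj H v (g : SL(2, ℤ) ⧸ H) := by
  obtain ⟨h, hh⟩ := QuotientGroup.mk_out_eq_mul H g
  unfold conj
  rw [hh, mul_smul, hv h h.2]

theorem conj_one {v : BB M O} (hv : ∀ h ∈ H, h • v = v) :
    conj H v ((1 : SL(2, ℤ)) : SL(2, ℤ) ⧸ H) = v := by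
  rw [← smul_eq_conj hv, one_smul]

theorem smul_conj {v : BB M O} (hv : ∀ h ∈ H, h • v = v) (g : SL(2, ℤ)) (c : SL(2, ℤ) ⧸ H) :
    g • conj H v c = conj H v (g • c) := by
  have h1 : g • conj H v c = (g * c.out) • v := (mul_smul g c.out v).symm
  have h2 : ((g * c.out : SL(2, ℤ)) : SL(2, ℤ) ⧸ H) = g • c := by
    conv_rhs => rw [← QuotientGroup.out_eq' c]
    rfl
  rw [h1, smul_eq_conj hv (g * c.out), h2]

variable (H) [H.FiniteIndex]

/-- `∏_c (Y - v_c)`. -/
def charPoly (v : BB M O) : (BB M O)[X] := ∏ c : SL(2, ℤ) ⧸ H, (X - C (conj H v c))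

/-- `∑_c s_c ∏_{c' ≠ c} (Y - v_{c'})`. -/
def lagPoly (v s : BB M O) : (BB M O)[X] :=
  ∑ c : SL(2, ℤ) ⧸ H, C (conj H s c) * ∏ c' ∈ Finset.univ.erase c, (X - C (conj H v c'))

variable {H}

/-- a polynomial over `BB M O` with invariant coefficients is defined over `O[j]`. -/
theorem exists_map_eq_of_invariant (hIP : InvPoly M O) (Q : (BB M O)[X])
    (hQ : ∀ g : SL(2, ℤ), Q.map (MulSemiringAction.toRingHom SL(2, ℤ) (BB M O) g) = Q) :
    ∃ W : O[X][X], W.map (evP O (jBB M O)) = Q := by
  rw [← Polynomial.mem_lifts, Polynomial.lifts_iff_coeff_lifts]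
  intro k
  obtain ⟨P, hP⟩ := hIP (Q.coeff k) (fun g => by
    have h1 := congrArg (fun R => R.coeff k) (hQ g)
    simpa only [coeff_map, MulSemiringAction.toRingHom_apply] using h1)
  exact ⟨P, hP.symm⟩

theorem exists_W (hIP : InvPoly M O) {v : BB M O} (hv : ∀ h ∈ H, h • v = v) :
    ∃ W : O[X][X], W.map (evP O (jBB M O)) = charPoly H v := by
  apply exists_map_eq_of_invariant hIP
  intro g
  unfold charPoly
  rw [Polynomial.map_prod]
  simp only [Polynomial.map_sub, Polynomial.map_X, Polynomial.map_C,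
    MulSemiringAction.toRingHom_apply, smul_conj hv]
  exact Equiv.prod_comp (MulAction.toPerm g) (fun c => X - C (conj H v c))

theorem exists_G (hIP : InvPoly M O) {v s : BB M O} (hv : ∀ h ∈ H, h • v = v)
    (hs : ∀ h ∈ H, h • s = s) :
    ∃ G : O[X][X], G.map (evP O (jBB M O)) = lagPoly H v s := by
  apply exists_map_eq_of_invariant hIP
  intro g
  unfold lagPoly
  rw [Polynomial.map_sum]
  simp only [Polynomial.map_mul, Polynomial.map_prod, Polynomial.map_sub, Polynomial.map_X,
    Polynomial.map_C, MulSemiringAction.toRingHom_apply, smul_conj hv, smul_conj hs]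
  rw [← Equiv.sum_comp (MulAction.toPerm g) (fun c => C (conj H s c) *
    ∏ c' ∈ Finset.univ.erase c, (X - C (conj H v c')))]
  refine Finset.sum_congr rfl (fun c _ => ?_)
  have h1 : Finset.univ.erase (g • c) =
      (Finset.univ.erase c).map (MulAction.toPerm g).toEmbedding := by
    ext x
    simp only [Finset.mem_erase, Finset.mem_univ, and_true, Finset.mem_map,
      Equiv.coe_toEmbedding, MulAction.toPerm_apply]
    constructor
    · intro hx
      refine ⟨g⁻¹ • x, fun h => hx ?_, smul_inv_smul g x⟩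
      rw [← h, smul_inv_smul]
    · rintro ⟨y, hy, rfl⟩ h
      exact hy (smul_left_cancel g h)
  rw [MulAction.toPerm_apply, h1, Finset.prod_map]
  rfl

omit [NeZero M] in
theorem K3_nontrivial : Nontrivial (BB M O) := by
  refine ⟨⟨0, 1, fun h => ?_⟩⟩
  have h1 : fn (0 : BB M O) UpperHalfPlane.I = fn (1 : BB M O) UpperHalfPlane.I := by rw [h]
  simp at h1

theorem charPoly_monic (v : BB M O) : (charPoly H v).Monic := by
  exact monic_prod_of_monic _ _ fun c _ => monic_X_sub_C _

theorem natDegree_charPoly (v : BB M O) : (charPoly H v).natDegree = Nat.card (SL(2, ℤ) ⧸ H) := by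
  have : Nontrivial (BB M O) := K3_nontrivial
  rw [charPoly, natDegree_prod_of_monic _ _ fun c _ => monic_X_sub_C _]
  simp only [natDegree_X_sub_C, Finset.sum_const, smul_eq_mul, mul_one, Finset.card_univ,
    Nat.card_eq_fintype_card]

theorem eval_charPoly {v : BB M O} (hv : ∀ h ∈ H, h • v = v) : (charPoly H v).eval v = 0 := by
  rw [charPoly, eval_prod]
  refine Finset.prod_eq_zero (Finset.mem_univ ((1 : SL(2, ℤ)) : SL(2, ℤ) ⧸ H)) ?_
  rw [conj_one hv, eval_sub, eval_X, eval_C, sub_self]

theorem eval_derivative_charPoly {v : BB M O} (hv : ∀ h ∈ H, h • v = v) :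
    (derivative (charPoly H v)).eval v =
      ∏ c ∈ Finset.univ.erase ((1 : SL(2, ℤ)) : SL(2, ℤ) ⧸ H), (v - conj H v c) := by
  rw [charPoly, derivative_prod_finset, eval_finsetSum,
    Finset.sum_eq_single ((1 : SL(2, ℤ)) : SL(2, ℤ) ⧸ H)]
  · simp [eval_prod]
  · intro c _ hc
    rw [eval_mul, eval_prod]
    rw [Finset.prod_eq_zero (Finset.mem_erase.2 ⟨hc.symm, Finset.mem_univ _⟩), zero_mul]
    rw [conj_one hv, eval_sub, eval_X, eval_C, sub_self]
  · intro h
    exact absurd (Finset.mem_univ _) h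

theorem eval_lagPoly {v s : BB M O} (hv : ∀ h ∈ H, h • v = v) (hs : ∀ h ∈ H, h • s = s) :
    (lagPoly H v s).eval v = s * (derivative (charPoly H v)).eval v := by
  rw [eval_derivative_charPoly hv, lagPoly, eval_finsetSum,
    Finset.sum_eq_single ((1 : SL(2, ℤ)) : SL(2, ℤ) ⧸ H)]
  · rw [conj_one hs]
    simp [eval_prod]
  · intro c _ hc
    rw [eval_mul, eval_prod]
    rw [Finset.prod_eq_zero (Finset.mem_erase.2 ⟨hc.symm, Finset.mem_univ _⟩), mul_zero]
    rw [conj_one hv, eval_sub, eval_X, eval_C, sub_self]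
  · intro h
    exact absurd (Finset.mem_univ _) h

theorem evP_jBB_injective : Function.Injective (evP O (jBB M O)) := by
  intro P Q hPQ
  have h1 := congrArg (fun x => coeffMap O.subtype (serHom M O 1 x)) hPQ
  simp only [serHom_evP] at h1
  have hc : ∀ a : O, coeffMap O.subtype (algebraMap O (LaurentSeries O) a) =
      algebraMap ℂ (LaurentSeries ℂ) (O.subtype a) := by
    intro a
    rw [algebraMap_laurent_eq_single, algebraMap_laurent_eq_single, coeffMap_single]
    rfl
  rw [map_evP O.subtype (coeffMap O.subtype) hc, map_evP O.subtype (coeffMap O.subtype) hc,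
    coeffMap_JN] at h1
  exact Polynomial.map_injective _ Subtype.val_injective
    (AnalyticData.evP_JC_injective (N := M) h1)

end

end

end Fermat.Agent.G1.IG
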