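import Fermat.Agent.G1.IG.Conj
import Fermat.Agent.S28.NP
import Fermat.Agent.S28.DescChar0

/-!
# G1-IG, part (iv), file 2: the core: from (INV) and separation at `∞` to
root / monic / independence mod `res` / simple root mod `res` / Lagrange interpolation
-/

set_option autoImplicit false

open UpperHalfPlane CongruenceSubgroup ModularCurve Polynomial
open scoped MatrixGroups Manifold

namespace Fermat.Agent.G1.IG

open Fermat.Agent.S28

noncomputable section

attribute [local instance] Subgroup.fintypeQuotientOfFiniteIndex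

open Classical in
section

variable {M : ℕ} [NeZero M] {O : Subring ℂ} {H : Subgroup SL(2, ℤ)} [H.FiniteIndex]
variable {κ : Type*} [Field κ] {res : O →+* κ}

/-- the reductions of the conjugates are pairwise distinct. -/
theorem e_conj_injective (hINV : INV M O res) {v : BB M O} (hv : ∀ h ∈ H, h • v = v)
    (hsep : ∀ γ : SL(2, ℤ), γ ∉ H → e res 1 v ≠ e res γ v) :
    Function.Injective fun c : SL(2, ℤ) ⧸ H => e res 1 (conj H v c) := by
  intro c c' hcc
  have hcc' : e res 1 (c.out • v) = e res 1 (c'.out • v) := hcc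
  have h0 : e res 1 (c.out • v - c'.out • v) = 0 := by
    rw [map_sub, hcc', sub_self]
  have h1 := hINV _ c.out h0
  rw [map_sub, sub_eq_zero, e_smul, e_smul, inv_mul_cancel] at h1
  have h2 : c'.out⁻¹ * c.out ∈ H := by
    by_contra hn
    exact hsep _ hn h1
  have h3 : ((c'.out : SL(2, ℤ)) : SL(2, ℤ) ⧸ H) = ((c.out : SL(2, ℤ)) : SL(2, ℤ) ⧸ H) :=
    QuotientGroup.eq.2 h2
  rw [QuotientGroup.out_eq', QuotientGroup.out_eq'] at h3
  exact h3.symm

/-- **(C2)** independence mod `res`. -/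
theorem core_indep (hres : Function.Surjective res) (hINV : INV M O res) {v : BB M O}
    (hv : ∀ h ∈ H, h • v = v) (hsep : ∀ γ : SL(2, ℤ), γ ∉ H → e res 1 v ≠ e res γ v)
    (u : Fin (Nat.card (SL(2, ℤ) ⧸ H)) → κ[X])
    (hu : ∑ i, evP κ (JN κ M) (u i) * e res 1 v ^ (i : ℕ) = 0) : u = 0 := by
  have hsurj : ∀ i, ∃ U : O[X], U.map res = u i := fun i => Polynomial.map_surjective res hres (u i)
  choose U hU using hsurj
  have hy : ∀ γ : SL(2, ℤ), e res γ (∑ i, evP O (jBB M O) (U i) * v ^ (i : ℕ)) =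
      ∑ i, evP κ (JN κ M) (u i) * e res γ v ^ (i : ℕ) := by
    intro γ
    rw [map_sum]
    refine Finset.sum_congr rfl fun i _ => ?_
    rw [map_mul, map_pow, e_evP, hU]
  have hy0 : ∀ γ : SL(2, ℤ), ∑ i, evP κ (JN κ M) (u i) * e res γ v ^ (i : ℕ) = 0 := by
    intro γ
    rw [← hy]
    apply hINV
    rw [hy]
    exact hu
  have hQ : (∑ i, C (evP κ (JN κ M) (u i)) * X ^ (i : ℕ) : (LaurentSeries κ)[X]) = 0 := by
    by_contra hne
    apply hne
    refine Polynomial.eq_zero_of_natDegree_lt_card_of_eval_eq_zero _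
      (e_conj_injective hINV hv hsep) (fun c => ?_) ?_
    · rw [Polynomial.eval_finsetSum]
      have := hy0 (c.out⁻¹ * 1)
      rw [← this]
      refine Finset.sum_congr rfl fun i _ => ?_
      rw [Polynomial.eval_mul, Polynomial.eval_C, Polynomial.eval_pow, Polynomial.eval_X]
      rfl
    · rw [← Nat.card_eq_fintype_card, Polynomial.natDegree_lt_iff_degree_lt hne]
      exact Polynomial.degree_sum_fin_lt _
  funext i
  have hc := congrArg (fun P : (LaurentSeries κ)[X] => P.coeff (i : ℕ)) hQ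
  simp only [Polynomial.finsetSum_coeff, Polynomial.coeff_C_mul, Polynomial.coeff_X_pow,
    Polynomial.coeff_zero] at hc
  rw [Finset.sum_eq_single i] at hc
  · rw [if_pos rfl, mul_one] at hc
    have hinj := evP_injective_of_pole (k := κ) (JN κ M) (order_qExpand_jqModC_neg κ M)
    exact hinj (hc.trans (map_zero _).symm)
  · intro j _ hj
    rw [if_neg (fun h => hj (Fin.ext h.symm)), mul_zero]
  · intro h
    exact absurd (Finset.mem_univ i) h

theorem K5_serHom_comp_evP (γ : SL(2, ℤ)) :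
    (serHom M O γ).comp (evP O (jBB M O)) = evP O (JN O M) :=
  RingHom.ext fun P => serHom_evP γ P

theorem K5_e_comp_evP (γ : SL(2, ℤ)) :
    (e res γ).comp (evP O (jBB M O)) = (evP κ (JN κ M)).comp (Polynomial.mapRingHom res) :=
  RingHom.ext fun P => e_evP res γ P

theorem core_monic {v : BB M O} {W : O[X][X]} (hW : W.map (evP O (jBB M O)) = charPoly H v) :
    W.Monic :=
  Polynomial.monic_of_injective (evP_jBB_injective (M := M) (O := O))
    (by rw [hW]; exact charPoly_monic v)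

theorem core_natDegree {v : BB M O} {W : O[X][X]}
    (hW : W.map (evP O (jBB M O)) = charPoly H v) :
    W.natDegree = Nat.card (SL(2, ℤ) ⧸ H) := by
  rw [← natDegree_map_eq_of_injective (evP_jBB_injective (M := M) (O := O)) W, hW,
    natDegree_charPoly]

/-- **(C1)** -/
theorem core_root {v : BB M O} (hv : ∀ h ∈ H, h • v = v) {W : O[X][X]}
    (hW : W.map (evP O (jBB M O)) = charPoly H v) :
    W.eval₂ (evP O (JN O M)) (ser v 1) = 0 := by
  have h := eval_charPoly hv
  rw [← hW, eval_map] at h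
  have h1 := congrArg (serHom M O 1) h
  rwa [Polynomial.hom_eval₂, map_zero, K5_serHom_comp_evP, serHom_apply] at h1

/-- **(C3)** simple root mod `res`. -/
theorem core_simple (hINV : INV M O res) {v : BB M O} (hv : ∀ h ∈ H, h • v = v)
    (hsep : ∀ γ : SL(2, ℤ), γ ∉ H → e res 1 v ≠ e res γ v) {W : O[X][X]}
    (hW : W.map (evP O (jBB M O)) = charPoly H v) :
    ((derivative W).map (Polynomial.mapRingHom res)).eval₂ (evP κ (JN κ M)) (e res 1 v) ≠ 0 := by
  have h : ((derivative W).map (Polynomial.mapRingHom res)).eval₂ (evP κ (JN κ M)) (e res 1 v)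
      = e res 1 ((derivative (charPoly H v)).eval v) := by
    rw [← hW, derivative_map, eval_map, Polynomial.hom_eval₂, K5_e_comp_evP, Polynomial.eval₂_map]
  rw [h, eval_derivative_charPoly hv, map_prod, Finset.prod_ne_zero_iff]
  intro c hc
  rw [map_sub, sub_ne_zero]
  intro h1
  have h2 : (fun c : SL(2, ℤ) ⧸ H => e res 1 (conj H v c)) ((1 : SL(2, ℤ)) : SL(2, ℤ) ⧸ H)
      = (fun c : SL(2, ℤ) ⧸ H => e res 1 (conj H v c)) c := by
    change e res 1 (conj H v ((1 : SL(2, ℤ)) : SL(2, ℤ) ⧸ H)) = e res 1 (conj H v c)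
    rw [conj_one hv, h1]
  exact (Finset.mem_erase.1 hc).1 (e_conj_injective hINV hv hsep h2).symm

/-- **(C4)** Lagrange interpolation. -/
theorem core_lagrange {v s : BB M O} (hv : ∀ h ∈ H, h • v = v) (hs : ∀ h ∈ H, h • s = s)
    {W G : O[X][X]} (hW : W.map (evP O (jBB M O)) = charPoly H v)
    (hG : G.map (evP O (jBB M O)) = lagPoly H v s) :
    G.eval₂ (evP O (JN O M)) (ser v 1) =
      ser s 1 * (derivative W).eval₂ (evP O (JN O M)) (ser v 1) := by
  have h := eval_lagPoly hv hs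
  rw [← hG, ← hW, derivative_map, eval_map, eval_map] at h
  have h1 := congrArg (serHom M O 1) h
  rwa [map_mul, Polynomial.hom_eval₂, Polynomial.hom_eval₂, K5_serHom_comp_evP, serHom_apply,
    serHom_apply] at h1

theorem K6_e_conj (v : BB M O) (c : SL(2, ℤ) ⧸ H) :
    e res 1 (conj H v c) = e res (c.out)⁻¹ v := by
  unfold conj
  rw [e_smul, mul_one]

theorem K6_smul_prod {v : BB M O} (hv : ∀ h ∈ H, h • v = v) (g : SL(2, ℤ)) :
    g • (∏ c : SL(2, ℤ) ⧸ H, conj H v c) = ∏ c : SL(2, ℤ) ⧸ H, conj H v c := by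
  rw [Finset.smul_prod']
  simp only [smul_conj hv]
  exact Equiv.prod_comp (MulAction.toPerm g) (fun c => conj H v c)

/-- the product of the reductions of all conjugates is a nonzero polynomial in `j` if no conjugate
vanishes mod `res`; hence it has a nonzero coefficient of index `≤ 0`. -/
theorem exists_coeff_prod_ne_zero (hIP : InvPoly M O) {v : BB M O} (hv : ∀ h ∈ H, h • v = v)
    (hne : ∀ γ : SL(2, ℤ), e res γ v ≠ 0) :
    ∃ m : ℤ, m ≤ 0 ∧ (∏ c : SL(2, ℤ) ⧸ H, e res 1 (conj H v c)).coeff m ≠ 0 := by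
  obtain ⟨P, hP⟩ := hIP _ (K6_smul_prod hv)
  have h1 : ∏ c : SL(2, ℤ) ⧸ H, e res 1 (conj H v c) = evP κ (JN κ M) (P.map res) := by
    rw [← map_prod, hP, e_evP]
  have h2 : ∏ c : SL(2, ℤ) ⧸ H, e res 1 (conj H v c) ≠ 0 := by
    rw [Finset.prod_ne_zero_iff]
    intro c _
    rw [K6_e_conj]
    exact hne _
  have h3 : P.map res ≠ 0 := by
    intro h
    apply h2
    rw [h1, h, map_zero]
  rw [h1]
  exact exists_coeff_ne_zero_of_pole (JN κ M) (order_qExpand_jqModC_neg κ M) _ h3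

theorem K6_out_inv_not_mem {c : SL(2, ℤ) ⧸ H} (hc : c ≠ ((1 : SL(2, ℤ)) : SL(2, ℤ) ⧸ H)) :
    (c.out)⁻¹ ∉ H := by
  intro h
  apply hc
  have h1 : ((c.out : SL(2, ℤ)) : SL(2, ℤ) ⧸ H) = c := QuotientGroup.out_eq' c
  rw [← h1, QuotientGroup.eq]
  simpa using h

theorem K6_order_pos {x : LaurentSeries κ} (hx0 : x ≠ 0) (hx : ∀ m : ℤ, m ≤ 0 → x.coeff m = 0) :
    0 < x.order := by
  by_contra h
  exact hx0 (HahnSeries.coeff_order_eq_zero.mp (hx _ (not_lt.mp h)))

/-- if all the other conjugates have positive order mod `res`, then `v` has order `≤ 0`. -/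
theorem order_le_zero_of_pos (hIP : InvPoly M O) {v : BB M O} (hv : ∀ h ∈ H, h • v = v)
    (hne : ∀ γ : SL(2, ℤ), e res γ v ≠ 0)
    (hpos : ∀ γ : SL(2, ℤ), γ ∉ H → ∀ m : ℤ, m ≤ 0 → (e res γ v).coeff m = 0) :
    (e res 1 v).order ≤ 0 := by
  by_contra hcon
  have hcon : 0 < (e res 1 v).order := not_le.mp hcon
  obtain ⟨m, hm0, hm⟩ := exists_coeff_prod_ne_zero (res := res) hIP hv hne
  have hfac : ∀ c : SL(2, ℤ) ⧸ H, e res 1 (conj H v c) ≠ 0 ∧ 0 < (e res 1 (conj H v c)).order := by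
    intro c
    by_cases hc : c = ((1 : SL(2, ℤ)) : SL(2, ℤ) ⧸ H)
    · rw [hc, conj_one hv]
      exact ⟨hne 1, hcon⟩
    · rw [K6_e_conj]
      exact ⟨hne _, K6_order_pos (hne _) (hpos _ (K6_out_inv_not_mem hc))⟩
  have key : ∀ s : Finset (SL(2, ℤ) ⧸ H), s.Nonempty →
      0 < (∏ c ∈ s, e res 1 (conj H v c)).order := by
    intro s hs
    induction hs using Finset.Nonempty.cons_induction with
    | singleton a => simpa using (hfac a).2
    | cons a s ha hs ih =>
      rw [Finset.prod_cons, HahnSeries.order_mul (hfac a).1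
        (Finset.prod_ne_zero_iff.mpr fun c _ => (hfac c).1)]
      have := (hfac a).2
      omega
  have h1 := key Finset.univ ⟨((1 : SL(2, ℤ)) : SL(2, ℤ) ⧸ H), Finset.mem_univ _⟩
  exact hm (HahnSeries.coeff_eq_zero_of_lt_order (lt_of_le_of_lt hm0 h1))

/-- abstract order estimate behind `sep_of`. -/
theorem K7_order_aux (M : ℕ) {X A U U' : LaurentSeries κ} (hX : X ≠ 0) (hord : X.order ≤ 0)
    (hpos : ∀ m : ℤ, m ≤ 0 → A.coeff m = 0) (hu0 : U.coeff 0 ≠ 0)
    (hpole : ∀ m : ℤ, m < -(M : ℤ) → U'.coeff m = 0) :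
    X ^ (M + 1) * U ≠ A ^ (M + 1) * U' := by
  intro h
  have hU : U ≠ 0 := by
    rintro rfl
    exact hu0 (by simp)
  have hUo : U.order ≤ 0 := HahnSeries.order_le_of_coeff_ne_zero hu0
  have hL : X ^ (M + 1) * U ≠ 0 := mul_ne_zero (pow_ne_zero _ hX) hU
  have hR : A ^ (M + 1) * U' ≠ 0 := h ▸ hL
  have hA : A ≠ 0 := by
    rintro rfl
    exact hR (by simp)
  have hU' : U' ≠ 0 := by
    rintro rfl
    exact hR (by simp)
  have hAo : 1 ≤ A.order := by
    by_contra hlt
    exact hA (HahnSeries.coeff_order_eq_zero.1 (hpos _ (by omega)))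
  have hU'o : -(M : ℤ) ≤ U'.order := by
    by_contra hlt
    exact hU' (HahnSeries.coeff_order_eq_zero.1 (hpole _ (by omega)))
  have h1 : (X ^ (M + 1) * U).order = (M + 1 : ℕ) • X.order + U.order := by
    rw [HahnSeries.order_mul (pow_ne_zero _ hX) hU, HahnSeries.order_pow]
  have h2 : (A ^ (M + 1) * U').order = (M + 1 : ℕ) • A.order + U'.order := by
    rw [HahnSeries.order_mul (pow_ne_zero _ hA) hU', HahnSeries.order_pow]
  rw [h] at h1
  rw [h1] at h2
  simp only [nsmul_eq_mul] at h2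
  push_cast at h2
  nlinarith

/-- **separation at `∞` of `v₀^(M+1) u`.** -/
theorem sep_of {H₀ : Subgroup SL(2, ℤ)} (v₀ u : BB M O) (hv₀ : ∀ β ∈ H₀, β • v₀ = v₀)
    (hne : e res 1 v₀ ≠ 0) (hord : (e res 1 v₀).order ≤ 0)
    (hpos : ∀ γ : SL(2, ℤ), γ ∉ H₀ → ∀ m : ℤ, m ≤ 0 → (e res γ v₀).coeff m = 0)
    (hu0 : (e res 1 u).coeff 0 ≠ 0)
    (hpole : ∀ (γ : SL(2, ℤ)) (m : ℤ), m < -(M : ℤ) → (e res γ u).coeff m = 0)
    (husep : ∀ γ ∈ H₀, γ ∉ H → e res 1 u ≠ e res γ u) (γ : SL(2, ℤ)) (hγ : γ ∉ H) :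
    e res 1 (v₀ ^ (M + 1) * u) ≠ e res γ (v₀ ^ (M + 1) * u) := by
  rw [map_mul, map_mul, map_pow, map_pow]
  by_cases h0 : γ ∈ H₀
  · have hv : e res γ v₀ = e res 1 v₀ := by
      rw [e_eq_one_smul, hv₀ _ (H₀.inv_mem h0)]
    rw [hv]
    intro h
    exact husep γ h0 hγ (mul_left_cancel₀ (pow_ne_zero _ hne) h)
  · exact K7_order_aux M hne hord (hpos γ h0) hu0 (hpole γ)

end

end

end Fermat.Agent.G1.IG
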