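import Fermat.Agent.S28.Analytic
import Fermat.Agent.S28.DescModL

/-!
# G1-IG: the ring `BB M O` of holomorphic modular functions of level `Γ(M)` all of whose translates
have `t = q^{1/M}`-expansions with coefficients in the subring `O ⊆ ℂ`

An element is a pair `(f, F)`: `f : ℍ → ℂ` holomorphic and `Γ(M)`-invariant, `F γ ∈ O((t))` the
expansion of `f ∘ γ`.  (`F` is determined by `f`: `BB.ext`.)  With this presentation
* `e res γ : BB M O →+* κ((t))`, the reduction of the expansion of `f ∘ γ`, is a ring hom by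
  construction;
* `SL₂(ℤ)` acts by `(g • f) τ = f (g⁻¹ τ)`, and `e res x (g • p) = e res (g⁻¹ * x) p` by `rfl`.
-/

set_option autoImplicit false

open UpperHalfPlane CongruenceSubgroup ModularCurve
open scoped MatrixGroups Manifold

namespace Fermat.Agent.G1.IG

open Fermat.Agent.S28

noncomputable section

/-- the ring of pairs (function, family of the expansions of its translates). -/
def BB (M : ℕ) (O : Subring ℂ) : Subring ((ℍ → ℂ) × (SL(2, ℤ) → LaurentSeries O)) where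
  carrier := {p | MDiff p.1 ∧ (∀ γ ∈ Gamma M, ∀ τ : ℍ, p.1 (γ • τ) = p.1 τ) ∧
    ∀ γ : SL(2, ℤ), IsExp M (fun τ => p.1 (γ • τ)) (coeffMap O.subtype (p.2 γ))}
  mul_mem' := by
    rintro a b ⟨ha1, ha2, ha3⟩ ⟨hb1, hb2, hb3⟩
    refine ⟨ha1.mul hb1, fun γ hγ τ => ?_, fun γ => ?_⟩
    · show a.1 (γ • τ) * b.1 (γ • τ) = a.1 τ * b.1 τ
      rw [ha2 γ hγ, hb2 γ hγ]
    · have h := (ha3 γ).mul (hb3 γ)
      rw [← map_mul] at h
      exact h
  one_mem' := by
    refine ⟨mdifferentiable_const, fun _ _ _ => rfl, fun γ => ?_⟩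
    have h := isExp_one M
    rw [← map_one (coeffMap O.subtype)] at h
    exact h
  add_mem' := by
    rintro a b ⟨ha1, ha2, ha3⟩ ⟨hb1, hb2, hb3⟩
    refine ⟨ha1.add hb1, fun γ hγ τ => ?_, fun γ => ?_⟩
    · show a.1 (γ • τ) + b.1 (γ • τ) = a.1 τ + b.1 τ
      rw [ha2 γ hγ, hb2 γ hγ]
    · have h := (ha3 γ).add (hb3 γ)
      rw [← map_add] at h
      exact h
  zero_mem' := by
    refine ⟨mdifferentiable_const, fun _ _ _ => rfl, fun γ => ?_⟩
    have h := isExp_zero M
    rw [← map_zero (coeffMap O.subtype)] at h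
    exact h
  neg_mem' := by
    rintro a ⟨ha1, ha2, ha3⟩
    refine ⟨ha1.neg, fun γ hγ τ => ?_, fun γ => ?_⟩
    · show -a.1 (γ • τ) = -a.1 τ
      rw [ha2 γ hγ]
    · have h := (ha3 γ).neg
      rw [← map_neg] at h
      exact h

variable {M : ℕ} {O : Subring ℂ}

/-- the underlying function. -/
def fn (p : BB M O) : ℍ → ℂ := p.1.1

/-- the expansion of `fn p ∘ γ`. -/
def ser (p : BB M O) (γ : SL(2, ℤ)) : LaurentSeries O := p.1.2 γ

theorem BB.mdiff (p : BB M O) : MDiff (fn p) := p.2.1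

theorem BB.inv (p : BB M O) {γ : SL(2, ℤ)} (hγ : γ ∈ Gamma M) (τ : ℍ) : fn p (γ • τ) = fn p τ :=
  p.2.2.1 γ hγ τ

theorem BB.isExp (p : BB M O) (γ : SL(2, ℤ)) :
    IsExp M (fun τ => fn p (γ • τ)) (coeffMap O.subtype (ser p γ)) := p.2.2.2 γ

@[simp] theorem BB.fn_mul (p q : BB M O) : fn (p * q) = fn p * fn q := rfl
@[simp] theorem BB.fn_add (p q : BB M O) : fn (p + q) = fn p + fn q := rfl
@[simp] theorem BB.fn_neg (p : BB M O) : fn (-p) = -fn p := rfl
@[simp] theorem BB.fn_sub (p q : BB M O) : fn (p - q) = fn p - fn q := rfl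
@[simp] theorem BB.fn_one : fn (1 : BB M O) = 1 := rfl
@[simp] theorem BB.fn_zero : fn (0 : BB M O) = 0 := rfl
@[simp] theorem BB.ser_mul (p q : BB M O) (γ : SL(2, ℤ)) : ser (p * q) γ = ser p γ * ser q γ := rfl
@[simp] theorem BB.ser_add (p q : BB M O) (γ : SL(2, ℤ)) : ser (p + q) γ = ser p γ + ser q γ := rfl
@[simp] theorem BB.ser_neg (p : BB M O) (γ : SL(2, ℤ)) : ser (-p) γ = -ser p γ := rfl
@[simp] theorem BB.ser_sub (p q : BB M O) (γ : SL(2, ℤ)) : ser (p - q) γ = ser p γ - ser q γ := rfl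
@[simp] theorem BB.ser_one (γ : SL(2, ℤ)) : ser (1 : BB M O) γ = 1 := rfl
@[simp] theorem BB.ser_zero (γ : SL(2, ℤ)) : ser (0 : BB M O) γ = 0 := rfl

/-- the function as a ring hom. -/
def fnHom (M : ℕ) (O : Subring ℂ) : BB M O →+* (ℍ → ℂ) :=
  (RingHom.fst _ _).comp (BB M O).subtype

/-- the expansion of the translate by `γ` as a ring hom. -/
def serHom (M : ℕ) (O : Subring ℂ) (γ : SL(2, ℤ)) : BB M O →+* LaurentSeries O :=
  (Pi.evalRingHom (fun _ : SL(2, ℤ) => LaurentSeries O) γ).comp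
    ((RingHom.snd _ _).comp (BB M O).subtype)

@[simp] theorem fnHom_apply (p : BB M O) : fnHom M O p = fn p := rfl
@[simp] theorem serHom_apply (γ : SL(2, ℤ)) (p : BB M O) : serHom M O γ p = ser p γ := rfl

theorem coeffMap_subtype_injective : Function.Injective (coeffMap O.subtype) :=
  coeffMap_injective _ Subtype.val_injective

/-- the expansions only depend on the translated function. -/
theorem BB.ser_eq_of_fn_eq [NeZero M] {p q : BB M O} {γ δ : SL(2, ℤ)}
    (h : ∀ τ, fn p (γ • τ) = fn q (δ • τ)) : ser p γ = ser q δ := by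
  apply coeffMap_subtype_injective
  exact ((BB.isExp p γ).congr h).unique (Nat.pos_of_ne_zero (NeZero.ne M)) (BB.isExp q δ)

/-- an element is determined by its function. -/
theorem BB.ext [NeZero M] {p q : BB M O} (h : fn p = fn q) : p = q := by
  apply Subtype.ext
  apply Prod.ext h
  funext γ
  exact BB.ser_eq_of_fn_eq (fun τ => by rw [h])

/-- construction of an element from a function. -/
def BB.ofFun (f : ℍ → ℂ) (h1 : MDiff f) (h2 : ∀ γ ∈ Gamma M, ∀ τ : ℍ, f (γ • τ) = f τ)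
    (h3 : ∀ γ : SL(2, ℤ), ∃ F : LaurentSeries ℂ, IsExp M (fun τ => f (γ • τ)) F ∧
      ∀ m : ℤ, F.coeff m ∈ O) : BB M O :=
  ⟨(f, fun γ => (exists_coeffMap_subtype_eq O _ (h3 γ).choose_spec.2).choose), h1, h2, fun γ => by
    show IsExp M _ (coeffMap O.subtype (exists_coeffMap_subtype_eq O _ (h3 γ).choose_spec.2).choose)
    rw [(exists_coeffMap_subtype_eq O _ (h3 γ).choose_spec.2).choose_spec]
    exact (h3 γ).choose_spec.1⟩

@[simp] theorem BB.ofFun_fn (f : ℍ → ℂ) (h1 : MDiff f)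
    (h2 : ∀ γ ∈ Gamma M, ∀ τ : ℍ, f (γ • τ) = f τ)
    (h3 : ∀ γ : SL(2, ℤ), ∃ F : LaurentSeries ℂ, IsExp M (fun τ => f (γ • τ)) F ∧
      ∀ m : ℤ, F.coeff m ∈ O) : fn (BB.ofFun f h1 h2 h3) = f := rfl

/-- the expansion of an element is any expansion of its function. -/
theorem BB.coeffMap_ser [NeZero M] (p : BB M O) (γ : SL(2, ℤ)) {F : LaurentSeries ℂ}
    (hF : IsExp M (fun τ => fn p (γ • τ)) F) : coeffMap O.subtype (ser p γ) = F :=
  (BB.isExp p γ).unique (Nat.pos_of_ne_zero (NeZero.ne M)) hF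

/-! ### the action of `SL₂(ℤ)` -/

theorem conj_mem_Gamma {γ : SL(2, ℤ)} (hγ : γ ∈ Gamma M) (g : SL(2, ℤ)) :
    g * γ * g⁻¹ ∈ Gamma M :=
  (Gamma_normal M).conj_mem γ hγ g

/-- `(g • f) τ = f (g⁻¹ τ)`. -/
def BB.act (g : SL(2, ℤ)) (p : BB M O) : BB M O :=
  ⟨(fun τ => fn p (g⁻¹ • τ), fun γ => ser p (g⁻¹ * γ)), mdiff_comp_smul (BB.mdiff p) g⁻¹,
    fun γ hγ τ => by
      show fn p (g⁻¹ • γ • τ) = fn p (g⁻¹ • τ)
      have h : g⁻¹ • γ • τ = (g⁻¹ * γ * g⁻¹⁻¹) • (g⁻¹ • τ) := by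
        rw [← mul_smul, ← mul_smul]
        congr 1
        group
      rw [h, BB.inv p (conj_mem_Gamma hγ g⁻¹)],
    fun γ => by
      show IsExp M (fun τ => fn p (g⁻¹ • γ • τ)) (coeffMap O.subtype (ser p (g⁻¹ * γ)))
      exact (BB.isExp p (g⁻¹ * γ)).congr fun τ => by rw [mul_smul]⟩

instance : SMul SL(2, ℤ) (BB M O) := ⟨BB.act⟩

@[simp] theorem BB.smul_fn (g : SL(2, ℤ)) (p : BB M O) (τ : ℍ) : fn (g • p) τ = fn p (g⁻¹ • τ) := rfl

@[simp] theorem BB.smul_ser (g : SL(2, ℤ)) (p : BB M O) (γ : SL(2, ℤ)) :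
    ser (g • p) γ = ser p (g⁻¹ * γ) := rfl

instance : MulSemiringAction SL(2, ℤ) (BB M O) where
  one_smul p := by
    apply Subtype.ext
    apply Prod.ext
    · funext τ
      show fn p ((1 : SL(2, ℤ))⁻¹ • τ) = fn p τ
      rw [inv_one, one_smul]
    · funext γ
      show ser p ((1 : SL(2, ℤ))⁻¹ * γ) = ser p γ
      rw [inv_one, one_mul]
  mul_smul g h p := by
    apply Subtype.ext
    apply Prod.ext
    · funext τ
      show fn p ((g * h)⁻¹ • τ) = fn p (h⁻¹ • g⁻¹ • τ)
      rw [mul_inv_rev, mul_smul]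
    · funext γ
      show ser p ((g * h)⁻¹ * γ) = ser p (h⁻¹ * (g⁻¹ * γ))
      rw [mul_inv_rev, mul_assoc]
  smul_zero _ := rfl
  smul_add _ _ _ := rfl
  smul_one _ := rfl
  smul_mul _ _ _ := rfl

/-- `Γ(M)` acts trivially. -/
theorem BB.smul_of_mem_Gamma [NeZero M] {g : SL(2, ℤ)} (hg : g ∈ Gamma M) (p : BB M O) :
    g • p = p :=
  BB.ext (funext fun τ => BB.inv p (inv_mem hg) τ)

/-- invariance under `g` in terms of the function. -/
theorem BB.smul_eq_iff [NeZero M] (g : SL(2, ℤ)) (p : BB M O) :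
    g • p = p ↔ ∀ τ, fn p (g • τ) = fn p τ := by
  constructor
  · intro h τ
    have h1 := congrArg (fun q : BB M O => fn q (g • τ)) h
    simp only [BB.smul_fn, inv_smul_smul] at h1
    exact h1.symm
  · intro h
    refine BB.ext (funext fun τ => ?_)
    rw [BB.smul_fn, ← h (g⁻¹ • τ), smul_inv_smul]

/-! ### reduction of the expansions -/

variable {κ : Type*} [CommRing κ]

/-- the reduction of the expansion of `f ∘ γ`. -/
def e (res : O →+* κ) (γ : SL(2, ℤ)) : BB M O →+* LaurentSeries κ :=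
  (coeffMap res).comp (serHom M O γ)

theorem e_apply (res : O →+* κ) (γ : SL(2, ℤ)) (p : BB M O) :
    e res γ p = coeffMap res (ser p γ) := rfl

@[simp] theorem e_smul (res : O →+* κ) (γ g : SL(2, ℤ)) (p : BB M O) :
    e res γ (g • p) = e res (g⁻¹ * γ) p := rfl

theorem e_eq_one_smul (res : O →+* κ) (γ : SL(2, ℤ)) (p : BB M O) :
    e res γ p = e res 1 (γ⁻¹ • p) := by
  rw [e_smul, inv_inv, mul_one]

/-! ### constants and `j` -/

/-- constants. -/
def constBB (M : ℕ) (O : Subring ℂ) : O →+* BB M O where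
  toFun c := ⟨(fun _ => (c : ℂ), fun _ => HahnSeries.C c), mdifferentiable_const,
    fun _ _ _ => rfl, fun _ => by
      have h := isExp_C M (c : ℂ)
      have h2 : coeffMap O.subtype (HahnSeries.C c) = HahnSeries.C (c : ℂ) := by
        show coeffMap O.subtype (HahnSeries.single 0 c) = HahnSeries.single 0 (c : ℂ)
        rw [coeffMap_single]
        rfl
      show IsExp M _ (coeffMap O.subtype (HahnSeries.C c))
      rw [h2]
      exact h⟩
  map_one' := rfl
  map_mul' a b := by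
    apply Subtype.ext
    apply Prod.ext
    · rfl
    · funext γ
      exact map_mul HahnSeries.C a b
  map_zero' := by
    apply Subtype.ext
    apply Prod.ext
    · rfl
    · funext γ
      exact map_zero HahnSeries.C
  map_add' a b := by
    apply Subtype.ext
    apply Prod.ext
    · rfl
    · funext γ
      exact map_add HahnSeries.C a b

instance : Algebra O (BB M O) := (constBB M O).toAlgebra

theorem algebraMap_fn (c : O) (τ : ℍ) : fn (algebraMap O (BB M O) c) τ = c := rfl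

theorem algebraMap_ser (c : O) (γ : SL(2, ℤ)) :
    ser (algebraMap O (BB M O) c) γ = HahnSeries.C c := rfl

theorem smul_algebraMap (g : SL(2, ℤ)) (c : O) :
    g • algebraMap O (BB M O) c = algebraMap O (BB M O) c := rfl

/-- `j` as an element of `BB M O`. -/
def jBB (M : ℕ) [NeZero M] (O : Subring ℂ) : BB M O :=
  ⟨(jF, fun _ => JN O M), mdiff_jF, fun γ _ τ => jF_smul γ τ, fun γ => by
    show IsExp M (fun τ => jF (γ • τ)) (coeffMap O.subtype (JN O M))
    rw [coeffMap_JN]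
    exact (isExp_jF_level M).congr fun τ => (jF_smul γ τ).symm⟩

@[simp] theorem fn_jBB [NeZero M] : fn (jBB M O) = jF := rfl

@[simp] theorem ser_jBB [NeZero M] (γ : SL(2, ℤ)) : ser (jBB M O) γ = JN O M := rfl

theorem smul_jBB [NeZero M] (g : SL(2, ℤ)) : g • jBB M O = jBB M O :=
  BB.ext (funext fun τ => jF_smul g⁻¹ τ)

theorem e_jBB [NeZero M] (res : O →+* κ) (γ : SL(2, ℤ)) : e res γ (jBB M O) = JN κ M := by
  rw [e_apply, ser_jBB, coeffMap_JN]

theorem e_algebraMap (res : O →+* κ) (γ : SL(2, ℤ)) (c : O) :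
    e res γ (algebraMap O (BB M O) c) = HahnSeries.C (res c) := by
  rw [e_apply, algebraMap_ser]
  show coeffMap res (HahnSeries.single 0 c) = HahnSeries.single 0 (res c)
  rw [coeffMap_single]

/-- **The statement (INV)** (`q`-expansion principle at level `Γ(M)`): vanishing mod `res` of the
expansion at `∞` implies vanishing mod `res` at all cusps. -/
def INV (M : ℕ) (O : Subring ℂ) {κ : Type*} [CommRing κ] (res : O →+* κ) : Prop :=
  ∀ (p : BB M O) (γ : SL(2, ℤ)), e res 1 p = 0 → e res γ p = 0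

end

end Fermat.Agent.G1.IG
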