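import Fermat.Agent.G1.IG.CoreAbs
import Fermat.Agent.G1.IG.Ring

/-!
# G1-IG (iv): the core statements (C1)-(C4) for the ring `BB M O`, from (INV)
-/

set_option autoImplicit false
set_option linter.unusedSectionVars false

open UpperHalfPlane CongruenceSubgroup ModularCurve Polynomial
open scoped MatrixGroups Manifold

namespace Fermat.Agent.G1.IG

open Fermat.Agent.S28

noncomputable section

variable {M : ℕ} [NeZero M] {O : Subring ℂ}

/-- `P ↦ P(j)`. -/
def phiB (M : ℕ) [NeZero M] (O : Subring ℂ) : O[X] →+* BB M O :=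
  (Polynomial.aeval (jBB M O) : O[X] →ₐ[O] BB M O).toRingHom

theorem phiB_apply (P : O[X]) : phiB M O P = Polynomial.aeval (jBB M O) P := rfl

theorem serHom_comp_phiB (γ : SL(2, ℤ)) :
    (serHom M O γ).comp (phiB M O) = evP O (JN O M) := by
  refine Polynomial.ringHom_ext (fun a => ?_) ?_
  · have h1 : evP O (JN O M) (C a) = algebraMap O (LaurentSeries O) a := by simp [evP]
    rw [h1, algebraMap_laurent_eq_single]
    simp only [RingHom.comp_apply, phiB_apply, aeval_C, serHom_apply, algebraMap_ser]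
    rfl
  · simp [phiB_apply, evP]

theorem ser_phiB (γ : SL(2, ℤ)) (P : O[X]) : ser (phiB M O P) γ = evP O (JN O M) P :=
  congrArg (fun f : O[X] →+* LaurentSeries O => f P) (serHom_comp_phiB γ)

theorem e_comp_phiB {κ : Type*} [CommRing κ] (res : O →+* κ) (γ : SL(2, ℤ)) :
    (e res γ).comp (phiB M O) = (evP κ (JN κ M)).comp (Polynomial.mapRingHom res) := by
  have h : (e res γ).comp (phiB M O) = (coeffMap res).comp ((serHom M O γ).comp (phiB M O)) := rfl
  rw [h, serHom_comp_phiB, evP_comp res (coeffMap res)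
    (coeffMap_algebraMap' res res fun _ => rfl), coeffMap_JN]

theorem e_phiB {κ : Type*} [CommRing κ] (res : O →+* κ) (γ : SL(2, ℤ)) (P : O[X]) :
    e res γ (phiB M O P) = evP κ (JN κ M) (P.map res) :=
  congrArg (fun f : O[X] →+* LaurentSeries κ => f P) (e_comp_phiB res γ)

theorem smul_phiB (g : SL(2, ℤ)) (P : O[X]) : g • phiB M O P = phiB M O P := by
  have h : (MulSemiringAction.toRingHom SL(2, ℤ) (BB M O) g).comp (phiB M O) = phiB M O := by
    refine Polynomial.ringHom_ext (fun a => ?_) ?_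
    · simp only [RingHom.comp_apply, phiB_apply, aeval_C, MulSemiringAction.toRingHom_apply,
        smul_algebraMap]
    · simp only [RingHom.comp_apply, phiB_apply, aeval_X, MulSemiringAction.toRingHom_apply,
        smul_jBB]
  exact congrArg (fun f : O[X] →+* BB M O => f P) h

/-- **The core of part (iv)**: (C1)-(C4). -/
theorem core4 {κ : Type*} [Field κ] (res : O →+* κ) (hres : Function.Surjective res)
    (hINV : INV M O res)
    (hinv : ∀ p : BB M O, (∀ g : SL(2, ℤ), g • p = p) →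
      ∃ P : O[X], p = Polynomial.aeval (jBB M O) P)
    (H : Subgroup SL(2, ℤ)) [H.FiniteIndex]
    (v : BB M O) (hv : ∀ h ∈ H, h • v = v)
    (hdist : ∀ g : SL(2, ℤ), g ∉ H → e res 1 (v - g • v) ≠ 0) :
    ∃ W : O[X][X], W.Monic ∧ W.natDegree = H.index ∧
      W.eval₂ (evP O (JN O M)) (ser v 1) = 0 ∧
      (∀ u : Fin H.index → κ[X],
        ∑ i, evP κ (JN κ M) (u i) * (e res 1 v) ^ (i : ℕ) = 0 → u = 0) ∧
      ((derivative W).map (Polynomial.mapRingHom res)).eval₂ (evP κ (JN κ M)) (e res 1 v) ≠ 0 ∧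
      (∀ s : BB M O, (∀ h ∈ H, h • s = s) → ∃ G : O[X][X],
        G.eval₂ (evP O (JN O M)) (ser v 1)
          = ser s 1 * (derivative W).eval₂ (evP O (JN O M)) (ser v 1)) := by
  have : Nontrivial (BB M O) := (e res 1 : BB M O →+* LaurentSeries κ).domain_nontrivial
  have hinv' : ∀ p : BB M O, (∀ g : SL(2, ℤ), g • p = p) → ∃ a : O[X], p = phiB M O a := hinv
  have he : ∀ (γ g : SL(2, ℤ)) (p : BB M O), e res γ (g • p) = e res (g⁻¹ * γ) p :=
    fun γ g p => e_smul res γ g p
  obtain ⟨W, hW, hdeg, hmon⟩ := Polynomial.lifts_and_natDegree_eq_and_monic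
    (CoreAbs.mem_lifts_of_invariant (phiB M O) hinv' _ (CoreAbs.smul_nodalB hv))
    (CoreAbs.nodalB_monic (H := H) v)
  have hser : ∀ P : O[X][X], P.eval₂ (evP O (JN O M)) (ser v 1)
      = ser ((P.map (phiB M O)).eval v) 1 := by
    intro P
    rw [← serHom_comp_phiB (1 : SL(2, ℤ)), ← serHom_apply, ← serHom_apply,
      ← Polynomial.hom_eval₂, Polynomial.eval₂_eq_eval_map]
  have hee : ∀ P : O[X][X], (P.map (Polynomial.mapRingHom res)).eval₂ (evP κ (JN κ M)) (e res 1 v)
      = e res 1 ((P.map (phiB M O)).eval v) := by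
    intro P
    rw [Polynomial.eval₂_map, ← e_comp_phiB res (1 : SL(2, ℤ)), ← Polynomial.hom_eval₂,
      Polynomial.eval₂_eq_eval_map]
  refine ⟨W, hmon, hdeg.trans (CoreAbs.natDegree_nodalB v), ?_, ?_, ?_, ?_⟩
  · rw [hser, hW, CoreAbs.eval_nodalB hv, BB.ser_zero]
  · intro u hu
    choose U hU using fun i => Polynomial.map_surjective res hres (u i)
    have h0 : e res 1 (∑ i, phiB M O (U i) * v ^ (i : ℕ)) = 0 := by
      rw [map_sum, ← hu]
      refine Finset.sum_congr rfl fun i _ => ?_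
      rw [map_mul, map_pow, e_phiB, hU]
    funext i
    have h1 := CoreAbs.e_coeff_eq_zero (e res) he hINV hv hdist (fun i => phiB M O (U i))
      (fun i g => smul_phiB g (U i)) h0 i
    rw [e_phiB, hU] at h1
    exact evP_injective_of_pole (k := κ) (JN κ M) (order_qExpand_jqModC_neg κ M)
      (h1.trans (map_zero _).symm)
  · rw [hee, ← Polynomial.derivative_map, hW]
    exact CoreAbs.e_eval_derivative_ne_zero (e res) hv hdist
  · intro s hs
    obtain ⟨Gp, hGp⟩ := (Polynomial.mem_lifts _).mp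
      (CoreAbs.mem_lifts_of_invariant (phiB M O) hinv' _ (CoreAbs.smul_interpB hv hs))
    refine ⟨Gp, ?_⟩
    rw [hser, hser, hGp, ← Polynomial.derivative_map, hW, CoreAbs.eval_interpB hv hs, BB.ser_mul]

end

end Fermat.Agent.G1.IG
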