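import Mathlib

/-!
# G1-IG (iv): the abstract core

`G` acts on a commutative ring `B`, `H ≤ G` has finite index, `v ∈ B` is `H`-invariant.
* `nodalB H v = ∏_{c ∈ G/H} (Y - c v)` and the Lagrange interpolants are `G`-invariant;
* given ring homs `e γ : B → K` (`K` a domain) with `e γ (g • p) = e (g⁻¹ γ) p` and the
  `q`-expansion principle (INV) `e 1 p = 0 → e γ p = 0`, distinctness of `e 1 v` from the
  `e 1 (g v)`, `g ∉ H`, implies that all the conjugates are pairwise distinct, whence the
  independence of `1, v, …, v^(n-1)` over the invariants after applying `e 1`.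
-/

set_option autoImplicit false
set_option linter.unusedSectionVars false

namespace Fermat.Agent.G1.IG.CoreAbs

open Polynomial

noncomputable section

variable {G B : Type*} [Group G] [CommRing B] [MulSemiringAction G B]
variable (H : Subgroup G)

/-- the conjugate of `v` attached to a coset. -/
def conj (v : B) (c : G ⧸ H) : B := c.out • v

variable {H}

theorem conj_mk {v : B} (hv : ∀ h ∈ H, h • v = v) (g : G) : conj H v (g : G ⧸ H) = g • v := by
  obtain ⟨h, hh⟩ := QuotientGroup.mk_out_eq_mul H g
  rw [conj, hh, mul_smul, hv h h.2]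

theorem smul_conj {v : B} (hv : ∀ h ∈ H, h • v = v) (g : G) (c : G ⧸ H) :
    g • conj H v c = conj H v (g • c) := by
  induction c using QuotientGroup.induction_on with
  | H a =>
    rw [MulAction.Quotient.smul_mk, conj_mk hv, conj_mk hv, smul_eq_mul, mul_smul]

theorem conj_one {v : B} (hv : ∀ h ∈ H, h • v = v) : conj H v ((1 : G) : G ⧸ H) = v := by
  rw [conj_mk hv, one_smul]

variable [H.FiniteIndex]

/-- (local instance) -/
def fintypeQ : Fintype (G ⧸ H) := Fintype.ofFinite _

/-- (local instance) -/
def decEqQ : DecidableEq (G ⧸ H) := Classical.decEq _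

attribute [local instance] fintypeQ decEqQ

theorem card_Q : Fintype.card (G ⧸ H) = H.index := by
  rw [Subgroup.index_eq_card, Nat.card_eq_fintype_card]

variable (H)

/-- `∏_c (Y - c v)`. -/
def nodalB (v : B) : B[X] := Lagrange.nodal Finset.univ (conj H v)

/-- the Lagrange interpolant `∑_c (c s) ∏_{c' ≠ c} (Y - c' v)`. -/
def interpB (v s : B) : B[X] :=
  ∑ c : G ⧸ H, C (conj H s c) * Lagrange.nodal (Finset.univ.erase c) (conj H v)

variable {H}

theorem smul_nodal_erase {v : B} (hv : ∀ h ∈ H, h • v = v) (g : G) (c : G ⧸ H) :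
    g • Lagrange.nodal (Finset.univ.erase c) (conj H v)
      = Lagrange.nodal (Finset.univ.erase (g • c)) (conj H v) := by
  rw [Lagrange.nodal_eq, Lagrange.nodal_eq, Finset.smul_prod']
  refine Finset.prod_equiv (MulAction.toPerm g) (fun i => ?_) (fun i _ => ?_)
  · simp only [Finset.mem_erase, Finset.mem_univ, and_true, MulAction.toPerm_apply, ne_eq,
      smul_left_cancel_iff]
  · rw [smul_sub, smul_X, smul_C, smul_conj hv, MulAction.toPerm_apply]

theorem smul_nodalB {v : B} (hv : ∀ h ∈ H, h • v = v) (g : G) : g • nodalB H v = nodalB H v := by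
  rw [nodalB, Lagrange.nodal_eq, Finset.smul_prod']
  refine Finset.prod_equiv (MulAction.toPerm g) (fun i => by simp) (fun i _ => ?_)
  rw [smul_sub, smul_X, smul_C, smul_conj hv, MulAction.toPerm_apply]

theorem smul_interpB {v s : B} (hv : ∀ h ∈ H, h • v = v) (hs : ∀ h ∈ H, h • s = s) (g : G) :
    g • interpB H v s = interpB H v s := by
  rw [interpB, Finset.smul_sum]
  refine Finset.sum_equiv (MulAction.toPerm g) (fun i => by simp) (fun i _ => ?_)
  rw [smul_mul', smul_C, smul_conj hs, smul_nodal_erase hv, MulAction.toPerm_apply]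

theorem nodalB_monic (v : B) : (nodalB H v).Monic := Lagrange.nodal_monic

theorem natDegree_nodalB [Nontrivial B] (v : B) : (nodalB H v).natDegree = H.index := by
  rw [nodalB, Lagrange.natDegree_nodal, Finset.card_univ, card_Q]

theorem eval_nodalB {v : B} (hv : ∀ h ∈ H, h • v = v) : (nodalB H v).eval v = 0 := by
  have h := Lagrange.eval_nodal_at_node (s := Finset.univ) (v := conj H v)
    (Finset.mem_univ ((1 : G) : G ⧸ H))
  rwa [conj_one hv] at h

theorem eval_derivative_nodalB {v : B} (hv : ∀ h ∈ H, h • v = v) :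
    (derivative (nodalB H v)).eval v
      = ∏ c ∈ Finset.univ.erase ((1 : G) : G ⧸ H), (v - conj H v c) := by
  have h := Lagrange.eval_nodal_derivative_eval_node_eq (s := Finset.univ) (v := conj H v)
    (Finset.mem_univ ((1 : G) : G ⧸ H))
  rw [conj_one hv, Lagrange.eval_nodal] at h
  exact h

theorem eval_interpB {v s : B} (hv : ∀ h ∈ H, h • v = v) (hs : ∀ h ∈ H, h • s = s) :
    (interpB H v s).eval v = s * (derivative (nodalB H v)).eval v := by
  rw [interpB, eval_finsetSum, Finset.sum_eq_single ((1 : G) : G ⧸ H)]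
  · rw [eval_mul, eval_C, conj_one hs, eval_derivative_nodalB hv, Lagrange.eval_nodal]
  · intro c _ hc
    rw [eval_mul, Lagrange.eval_nodal,
      Finset.prod_eq_zero (Finset.mem_erase.mpr ⟨Ne.symm hc, Finset.mem_univ ((1 : G) : G ⧸ H)⟩)
        (by rw [conj_one hv, sub_self]), mul_zero]
  · intro h
    exact absurd (Finset.mem_univ _) h

/-- an invariant polynomial lifts along any ring hom whose range contains the invariants. -/
theorem mem_lifts_of_invariant {A : Type*} [CommRing A] (φ : A →+* B)
    (hinv : ∀ p : B, (∀ g : G, g • p = p) → ∃ a : A, p = φ a)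
    (P : B[X]) (hP : ∀ g : G, g • P = P) : P ∈ Polynomial.lifts φ := by
  rw [Polynomial.lifts_iff_coeff_lifts]
  intro n
  obtain ⟨a, ha⟩ := hinv (P.coeff n) fun g => by
    conv_rhs => rw [← hP g]
    rw [coeff_smul]
  exact ⟨a, ha.symm⟩

/-! ### the reductions -/

variable {K : Type*} [CommRing K] [IsDomain K] (e : G → B →+* K)
  (he : ∀ (γ g : G) (p : B), e γ (g • p) = e (g⁻¹ * γ) p)
  (hINV : ∀ (p : B) (γ : G), e 1 p = 0 → e γ p = 0)

include he hINV

theorem e_smul_eq_zero_iff (g : G) (p : B) : e 1 (g • p) = 0 ↔ e 1 p = 0 := by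
  constructor
  · intro h
    have h1 := hINV _ g h
    rwa [he, inv_mul_cancel] at h1
  · intro h
    rw [he, mul_one]
    exact hINV _ _ h

theorem e_conj_injective {v : B} (hv : ∀ h ∈ H, h • v = v)
    (hdist : ∀ g : G, g ∉ H → e 1 (v - g • v) ≠ 0) :
    Function.Injective fun c : G ⧸ H => e 1 (conj H v c) := by
  intro c c' h
  induction c using QuotientGroup.induction_on with
  | H a =>
  induction c' using QuotientGroup.induction_on with
  | H b =>
    by_contra hne
    have hab : a⁻¹ * b ∉ H := fun hm => hne (QuotientGroup.eq.mpr hm)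
    apply hdist _ hab
    rw [← e_smul_eq_zero_iff e he hINV a, smul_sub, ← mul_smul, mul_inv_cancel_left, map_sub,
      sub_eq_zero]
    simpa only [conj_mk hv] using h

/-- independence. -/
theorem e_coeff_eq_zero {v : B} (hv : ∀ h ∈ H, h • v = v)
    (hdist : ∀ g : G, g ∉ H → e 1 (v - g • v) ≠ 0)
    (a : Fin H.index → B) (ha : ∀ i (g : G), g • a i = a i)
    (h0 : e 1 (∑ i, a i * v ^ (i : ℕ)) = 0) (i : Fin H.index) : e 1 (a i) = 0 := by
  set P : K[X] := ∑ i : Fin H.index, C (e 1 (a i)) * X ^ (i : ℕ) with hP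
  have hPz : P = 0 := by
    refine Polynomial.eq_zero_of_natDegree_lt_card_of_eval_eq_zero P
      (e_conj_injective e he hINV hv hdist) (fun c => ?_) ?_
    · induction c using QuotientGroup.induction_on with
      | H g =>
        have h1 := (e_smul_eq_zero_iff e he hINV g _).mpr h0
        rw [Finset.smul_sum, map_sum] at h1
        rw [hP, eval_finsetSum, ← h1]
        refine Finset.sum_congr rfl fun i _ => ?_
        rw [eval_mul, eval_C, eval_pow, eval_X, smul_mul', smul_pow', ha, map_mul, map_pow,
          conj_mk hv]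
    · rw [card_Q]
      have hpos : 0 < H.index := Nat.pos_of_ne_zero Subgroup.FiniteIndex.index_ne_zero
      rw [hP]
      refine lt_of_le_of_lt (natDegree_sum_le_of_forall_le (n := H.index - 1) _ _ fun i _ => ?_)
        (by omega)
      refine (natDegree_C_mul_X_pow_le _ _).trans ?_
      have := i.2
      omega
  have h2 : P.coeff i = e 1 (a i) := by
    rw [hP, finsetSum_coeff, Finset.sum_eq_single i]
    · rw [coeff_C_mul, coeff_X_pow, if_pos rfl, mul_one]
    · intro k _ hk
      rw [coeff_C_mul, coeff_X_pow, if_neg (fun h => hk (Fin.ext h.symm)), mul_zero]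
    · intro h
      exact absurd (Finset.mem_univ _) h
  rw [← h2, hPz, coeff_zero]

omit he hINV in
/-- simplicity of the root. -/
theorem e_eval_derivative_ne_zero {v : B} (hv : ∀ h ∈ H, h • v = v)
    (hdist : ∀ g : G, g ∉ H → e 1 (v - g • v) ≠ 0) :
    e 1 ((derivative (nodalB H v)).eval v) ≠ 0 := by
  rw [eval_derivative_nodalB hv, map_prod, Finset.prod_ne_zero_iff]
  intro c hc
  induction c using QuotientGroup.induction_on with
  | H g =>
    rw [conj_mk hv]
    apply hdist
    intro hg
    apply (Finset.mem_erase.mp hc).1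
    rw [eq_comm, QuotientGroup.eq, inv_one, one_mul]
    exact hg

end

end Fermat.Agent.G1.IG.CoreAbs
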