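import Mathlib

/-!
# G1-IG (Igusa for `Γ₁(N)`), file `GrpCore`: the abstract group theoretic core

`B` a commutative ring with a right action `act` of `SL₂(ℤ)` by ring homomorphisms which is trivial on
`Γ(N)`, `e : B →+* K` a ring homomorphism to a domain ("reduction of the expansion at `∞`").
If `ker e` is stable under `T` and if `ker e` and `ker (e ∘ act g)` have the same intersection with
the `Γ₀(N)`-invariants for all `g`, then `ker e` is stable under `SL₂(ℤ)`.
-/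

set_option autoImplicit false

open scoped MatrixGroups
open CongruenceSubgroup ModularGroup

namespace Fermat.Agent.G1.IG

section Finite

variable {B K H : Type*} [CommRing B] [CommRing K] [IsDomain K] [Group H] [Finite H]

/-- transitivity of a finite group on the primes above a prime of the ring of invariants
(for kernels of homomorphisms to domains; right actions). -/
theorem Core_exists_ker_eq (a : H → B →+* B) (a_one : ∀ f, a 1 f = f)
    (a_mul : ∀ x y f, a (x * y) f = a y (a x f)) (φ ψ : B →+* K)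
    (h : ∀ f, (∀ x, a x f = f) → (φ f = 0 ↔ ψ f = 0)) :
    ∃ x : H, ∀ f, φ f = 0 ↔ ψ (a x f) = 0 := by
  classical
  have : Fintype H := Fintype.ofFinite H
  set Nm : B → B := fun f => ∏ x : H, a x f with hNm
  have hinv : ∀ f y, a y (Nm f) = Nm f := by
    intro f y
    simp only [hNm, map_prod]
    rw [← Equiv.prod_comp (Equiv.mulRight y) (fun x => a x f)]
    refine Finset.prod_congr rfl fun x _ => ?_
    rw [Equiv.coe_mulRight, a_mul]
  -- one inclusion, for a general pair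
  have key : ∀ φ' ψ' : B →+* K, (∀ f, (∀ x, a x f = f) → (φ' f = 0 → ψ' f = 0)) →
      ∃ x : H, ∀ f, φ' f = 0 → ψ' (a x f) = 0 := by
    intro φ' ψ' h'
    have hsub : ((RingHom.ker φ' : Ideal B) : Set B) ⊆
        ⋃ x ∈ ((Finset.univ : Finset H) : Set H), (RingHom.ker (ψ'.comp (a x)) : Ideal B) := by
      intro f hf
      have hf0 : φ' f = 0 := hf
      have h1 : φ' (Nm f) = 0 := by
        simp only [hNm, map_prod]
        exact Finset.prod_eq_zero (Finset.mem_univ 1) (by rw [a_one, hf0])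
      have h2 := h' (Nm f) (fun x => hinv f x) h1
      simp only [hNm, map_prod] at h2
      obtain ⟨x, -, hx⟩ := Finset.prod_eq_zero_iff.mp h2
      simp only [Set.mem_iUnion]
      exact ⟨x, Finset.mem_coe.mpr (Finset.mem_univ x), hx⟩
    obtain ⟨x, -, hx⟩ := (Ideal.subset_union_prime (1 : H) (1 : H)
      (fun x _ _ _ => RingHom.ker_isPrime (ψ'.comp (a x)))).mp hsub
    exact ⟨x, fun f hf => hx hf⟩
  obtain ⟨x₁, h₁⟩ := key φ ψ fun f hf => (h f hf).mp
  obtain ⟨x₂, h₂⟩ := key ψ φ fun f hf => (h f hf).mpr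
  refine ⟨x₁, fun f => ⟨h₁ f, fun hf => ?_⟩⟩
  -- `x = x₁ x₂` maps `ker φ` into itself
  have hstep : ∀ f, φ f = 0 → φ (a (x₁ * x₂) f) = 0 := by
    intro f hf
    rw [a_mul]
    exact h₂ _ (h₁ f hf)
  have hiter : ∀ (n : ℕ) f, φ f = 0 → φ (a ((x₁ * x₂) ^ n) f) = 0 := by
    intro n
    induction n with
    | zero => intro f hf; rwa [pow_zero, a_one]
    | succ n ih =>
      intro f hf
      rw [pow_succ, a_mul]
      exact hstep _ (ih f hf)
  have h3 : φ (a (x₁ * x₂) f) = 0 := by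
    rw [a_mul]
    exact h₂ _ hf
  have h4 := hiter (orderOf (x₁ * x₂) - 1) _ h3
  rw [← a_mul, ← pow_succ', Nat.sub_add_cancel (orderOf_pos _), pow_orderOf_eq_one, a_one] at h4
  exact h4

end Finite

section Group

theorem Core_conj_T_mem (N : ℕ) (β : SL(2, ℤ)) (hβ : β ∈ Gamma0 N) :
    T ^ (-(β 0 0 * β 0 0)) * (β * T * β⁻¹) ∈ Gamma N := by
  have hc : ((β 1 0 : ℤ) : ZMod N) = 0 := Gamma0_mem.mp hβ
  have hdet : β 0 0 * β 1 1 - β 0 1 * β 1 0 = 1 := by
    have := β.det_coe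
    rw [Matrix.det_fin_two] at this
    exact this
  have hT : ∀ n : ℤ, ((T ^ n : SL(2, ℤ)) : Matrix (Fin 2) (Fin 2) ℤ) = !![1, n; 0, 1] := coe_T_zpow
  have hT1 : ((T : SL(2, ℤ)) : Matrix (Fin 2) (Fin 2) ℤ) = !![1, 1; 0, 1] := coe_T
  have hinv : ((β⁻¹ : SL(2, ℤ)) : Matrix (Fin 2) (Fin 2) ℤ) = !![β 1 1, -β 0 1; -β 1 0, β 0 0] := by
    rw [Matrix.SpecialLinearGroup.coe_inv, Matrix.adjugate_fin_two]
  have hβ' : (β : Matrix (Fin 2) (Fin 2) ℤ) = !![β 0 0, β 0 1; β 1 0, β 1 1] :=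
    Matrix.eta_fin_two _
  have hval : ((T ^ (-(β 0 0 * β 0 0)) * (β * T * β⁻¹) : SL(2, ℤ)) : Matrix (Fin 2) (Fin 2) ℤ) =
      !![1, -(β 0 0 * β 0 0); 0, 1] * (!![β 0 0, β 0 1; β 1 0, β 1 1] * !![1, 1; 0, 1] *
        !![β 1 1, -β 0 1; -β 1 0, β 0 0]) := by
    rw [Matrix.SpecialLinearGroup.coe_mul, Matrix.SpecialLinearGroup.coe_mul,
      Matrix.SpecialLinearGroup.coe_mul, hT, hT1, hinv, ← hβ']
  set a := β 0 0
  set b := β 0 1
  set c := β 1 0
  set d := β 1 1
  rw [Gamma_mem]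
  have e00 : (T ^ (-(a * a)) * (β * T * β⁻¹) : SL(2, ℤ)) 0 0 = 1 + c * (-a + a * a * c) := by
    have := congrFun (congrFun hval 0) 0
    rw [this]
    simp [Matrix.mul_apply, Fin.sum_univ_two]
    linear_combination hdet
  have e01 : (T ^ (-(a * a)) * (β * T * β⁻¹) : SL(2, ℤ)) 0 1 = c * (-(a * a * a)) := by
    have := congrFun (congrFun hval 0) 1
    rw [this]
    simp [Matrix.mul_apply, Fin.sum_univ_two]
    linear_combination (-(a * a)) * hdet
  have e10 : (T ^ (-(a * a)) * (β * T * β⁻¹) : SL(2, ℤ)) 1 0 = c * (-c) := by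
    have := congrFun (congrFun hval 1) 0
    rw [this]
    simp [Matrix.mul_apply, Fin.sum_univ_two]
    ring
  have e11 : (T ^ (-(a * a)) * (β * T * β⁻¹) : SL(2, ℤ)) 1 1 = 1 + c * a := by
    have := congrFun (congrFun hval 1) 1
    rw [this]
    simp [Matrix.mul_apply, Fin.sum_univ_two]
    linear_combination hdet
  rw [e00, e01, e10, e11]
  push_cast
  rw [hc]
  simp

theorem Core_S_inv_eq : (S⁻¹ : SL(2, ℤ)) = T * (S⁻¹ * T * S) * T := by
  ext i j
  fin_cases i <;> fin_cases j <;>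
    simp [Matrix.SpecialLinearGroup.coe_inv, Matrix.adjugate_fin_two, coe_S, coe_T,
      Matrix.mul_apply, Fin.sum_univ_two]

/-- a subgroup of `SL₂(ℤ)` containing `T`, `Γ(N)` and meeting every coset `Γ₀(N) g` is everything -/
theorem Core_eq_top (N : ℕ) (D : Subgroup SL(2, ℤ)) (hT : T ∈ D) (hΓ : Gamma N ≤ D)
    (h : ∀ g : SL(2, ℤ), ∃ β ∈ Gamma0 N, β * g ∈ D) : D = ⊤ := by
  have hconj0 : ∀ β ∈ Gamma0 N, β * T * β⁻¹ ∈ D := by
    intro β hβ
    have h1 := hΓ (Core_conj_T_mem N β hβ)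
    have h2 := D.mul_mem (D.zpow_mem hT (β 0 0 * β 0 0)) h1
    rwa [← mul_assoc, ← zpow_add, add_neg_cancel, zpow_zero, one_mul] at h2
  have hconj : ∀ g : SL(2, ℤ), g⁻¹ * T * g ∈ D := by
    intro g
    obtain ⟨β, hβ, hd⟩ := h g
    have h1 := D.mul_mem (D.mul_mem (D.inv_mem hd) (hconj0 β hβ)) hd
    have h2 : (β * g)⁻¹ * (β * T * β⁻¹) * (β * g) = g⁻¹ * T * g := by group
    rwa [h2] at h1
  have hS : S ∈ D := by
    have h1 : S⁻¹ ∈ D := by
      rw [Core_S_inv_eq]
      exact D.mul_mem (D.mul_mem hT (hconj S)) hT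
    simpa using D.inv_mem h1
  rw [eq_top_iff, ← SpecialLinearGroup.SL2Z_generators, Subgroup.closure_le]
  rintro x (rfl | rfl)
  · exact hS
  · exact hT

end Group

section Main

variable {B K : Type*} [CommRing B] [CommRing K] [IsDomain K]

/-- **The core of Igusa's theorem for `Γ(N)`-level rings.** -/
theorem core (N : ℕ) [NeZero N] (act : SL(2, ℤ) → B →+* B) (act_one : ∀ f, act 1 f = f)
    (act_mul : ∀ g h f, act (g * h) f = act h (act g f))
    (triv : ∀ γ ∈ Gamma N, ∀ f, act γ f = f) (e : B →+* K)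
    (hT : ∀ f, e f = 0 ↔ e (act T f) = 0)
    (h0 : ∀ f, (∀ γ ∈ Gamma0 N, act γ f = f) → ∀ g, (e f = 0 ↔ e (act g f) = 0)) :
    ∀ f g, e f = 0 ↔ e (act g f) = 0 := by
  -- the stabiliser of `ker e`
  let D : Subgroup SL(2, ℤ) :=
    { carrier := {g | ∀ f, e f = 0 ↔ e (act g f) = 0}
      one_mem' := fun f => by rw [act_one]
      mul_mem' := fun {g h} hg hh f => by rw [act_mul, ← hh, ← hg]
      inv_mem' := fun {g} hg f => by
        rw [hg (act g⁻¹ f), ← act_mul, inv_mul_cancel, act_one] }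
  suffices hD : D = ⊤ by
    intro f g
    have : g ∈ D := hD ▸ Subgroup.mem_top g
    exact this f
  refine Core_eq_top N D hT (fun γ hγ f => by rw [triv γ hγ]) ?_
  intro g
  -- the finite group `Γ₀(N)/Γ(N)`
  let Γ' : Subgroup (Gamma0 N) := (Gamma N).subgroupOf (Gamma0 N)
  have hnor0 : (Gamma N).Normal := Gamma_normal N
  have hnor : Γ'.Normal := Subgroup.normal_subgroupOf
  have hfin : Finite (Gamma0 N ⧸ Γ') := Subgroup.finite_quotient_of_finiteIndex
  let a : (Gamma0 N ⧸ Γ') → B →+* B := fun q => act ((Quotient.out q : Gamma0 N) : SL(2, ℤ))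
  have ha : ∀ β : Gamma0 N, a (QuotientGroup.mk β) = act (β : SL(2, ℤ)) := by
    intro β
    obtain ⟨ν, hν⟩ := QuotientGroup.mk_out_eq_mul Γ' β
    ext f
    show act ((Quotient.out (QuotientGroup.mk β : Gamma0 N ⧸ Γ') : Gamma0 N) : SL(2, ℤ)) f = _
    rw [hν, Subgroup.coe_mul, act_mul]
    exact triv _ (Subgroup.mem_subgroupOf.mp ν.2) _
  have ha' : ∀ q : Gamma0 N ⧸ Γ', ∃ β : Gamma0 N, q = QuotientGroup.mk β := fun q =>
    ⟨Quotient.out q, (QuotientGroup.out_eq' q).symm⟩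
  obtain ⟨x, hx⟩ := Core_exists_ker_eq a
    (fun f => by
      have := ha 1
      rw [QuotientGroup.mk_one] at this
      rw [this]
      exact act_one f)
    (fun x y f => by
      obtain ⟨β, rfl⟩ := ha' x
      obtain ⟨β', rfl⟩ := ha' y
      rw [← QuotientGroup.mk_mul, ha, ha, ha, Subgroup.coe_mul, act_mul])
    e (e.comp (act g))
    (fun f hf => h0 f (fun γ hγ => by
      have := hf (QuotientGroup.mk ⟨γ, hγ⟩)
      rwa [ha] at this) g)
  obtain ⟨β, rfl⟩ := ha' x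
  refine ⟨β, β.2, fun f => ?_⟩
  rw [hx f, ha, act_mul]
  rfl

end Main

end Fermat.Agent.G1.IG
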