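import Fermat.Agent.G1.IG.VData
import Fermat.Agent.G1.D.Iface
import Fermat.Agent.G1.C.Finite
import Fermat.Agent.G1.A.AlgRel

/-!
# G1-IG / G1-C: the inputs `VertIn` (from `Model1`) and `FinIn` of G1-D
-/

set_option autoImplicit false

namespace Fermat.Agent.G1.IG

open Fermat.Agent.G1

/-- the input `VertIn` of G1-D from the model over `ℤ_(ℓ)`. -/
theorem vertIn_of_model
    (h : ∀ (N : ℕ) [NeZero N] (ℓ : ℕ) [Fact ℓ.Prime], ¬ ℓ ∣ N → Model1 N ℓ) : D.VertIn := by
  intro L _ _ R _ N _ ℓ _ hℓN _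
  exact nonempty_vdata1_of_model N ℓ (h N ℓ hℓN)

/-- the input `FinIn` of G1-D. -/
theorem finIn : D.FinIn := by
  intro K _ _ N _
  exact C.finiteDimensional_FF K N ((A.algRel N).of_charZero K)

end Fermat.Agent.G1.IG
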