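import Fermat.Agent.G1.IG.PolyJ

/-!
# G1-IG, file `Qep0`: the `q`-expansion principle for the `Γ₀(M)`-invariant elements of `BB M O`

From the Newton polygon irreducibility criterion of S28 for the modular unit `vF M`.
-/

set_option autoImplicit false

open UpperHalfPlane CongruenceSubgroup ModularCurve Polynomial
open scoped MatrixGroups Manifold

namespace Fermat.Agent.G1.IG

open Fermat.Agent.S28

noncomputable section

variable {M : ℕ} [NeZero M] {O : Subring ℂ}

/-! ### the modular unit -/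

theorem Qep0_Gamma_le_Gamma0 {γ : SL(2, ℤ)} (hγ : γ ∈ Gamma M) : γ ∈ Gamma0 M :=
  Gamma0_mem.mpr (Gamma_mem.mp hγ).2.2.1

theorem Qep0_coeff_iotaC_mem (V : LaurentSeries ℤ) (m : ℤ) : (iotaC M V).coeff m ∈ O := by
  have h : iotaC M V = coeffMap O.subtype (iotaN O M V) := (coeffMap_iotaN O.subtype M V).symm
  rw [h, coeffMap_coeff]
  exact ((iotaN O M V).coeff m).2

/-- the modular unit `vF M` of S28 as an element of `BB M O`. -/
def vBB (M : ℕ) [NeZero M] (O : Subring ℂ) (hM : ((M : ℂ))⁻¹ ∈ O)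
    (hζ : ∀ ζ : ℂ, ζ ^ M = 1 → ζ ∈ O) : BB M O :=
  BB.ofFun (vF M) (mdiff_vF M)
    (fun γ hγ τ => vF_smul_of_mem_Gamma0 M γ (Qep0_Gamma_le_Gamma0 hγ) τ)
    (fun γ => by
      by_cases hγ : γ ∈ Gamma0 M
      · exact ⟨iotaC M (VZ M), (isExp_vF M).congr fun τ => (vF_smul_of_mem_Gamma0 M γ hγ τ).symm,
          Qep0_coeff_iotaC_mem _⟩
      · obtain ⟨f, hf, h⟩ := exists_isExp_vF_smul M γ
        exact ⟨f, hf, ((h hγ).2 O hM hζ).1⟩)

variable (hM : ((M : ℂ))⁻¹ ∈ O) (hζ : ∀ ζ : ℂ, ζ ^ M = 1 → ζ ∈ O)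

@[simp] theorem fn_vBB : fn (vBB M O hM hζ) = vF M := rfl

theorem smul_vBB {β : SL(2, ℤ)} (hβ : β ∈ Gamma0 M) : β • vBB M O hM hζ = vBB M O hM hζ :=
  (BB.smul_eq_iff β _).mpr fun τ => vF_smul_of_mem_Gamma0 M β hβ τ

theorem ser_vBB_one : ser (vBB M O hM hζ) 1 = iotaN O M (VZ M) := by
  apply coeffMap_subtype_injective
  rw [coeffMap_iotaN]
  exact BB.coeffMap_ser _ 1 ((isExp_vF M).congr fun τ => by rw [fn_vBB, one_smul])

/-- outside `Γ₀(M)` the reduced expansions of the unit are nonzero of positive order. -/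
theorem e_vBB_of_not_mem {κ : Type*} [Field κ] (res : O →+* κ) {γ : SL(2, ℤ)}
    (hγ : γ ∉ Gamma0 M) :
    e res γ (vBB M O hM hζ) ≠ 0 ∧ ∀ m : ℤ, m ≤ 0 → (e res γ (vBB M O hM hζ)).coeff m = 0 := by
  obtain ⟨f, hf, h⟩ := exists_isExp_vF_smul M γ
  obtain ⟨hpos, hO⟩ := h hγ
  obtain ⟨-, m, hm0, hminv⟩ := hO O hM hζ
  have hser : coeffMap O.subtype (ser (vBB M O hM hζ) γ) = f := BB.coeffMap_ser _ γ hf
  have hc : ∀ k : ℤ, (((ser (vBB M O hM hζ) γ).coeff k : O) : ℂ) = f.coeff k := by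
    intro k
    rw [← hser, coeffMap_coeff]
    rfl
  constructor
  · intro h0
    have h1 : res ((ser (vBB M O hM hζ) γ).coeff m) = 0 := by
      rw [← coeffMap_coeff, ← e_apply, h0]
      rfl
    have h2 : (ser (vBB M O hM hζ) γ).coeff m * ⟨_, hminv⟩ = 1 :=
      Subtype.ext (by
        show (((ser (vBB M O hM hζ) γ).coeff m : O) : ℂ) * (f.coeff m)⁻¹ = 1
        rw [hc, mul_inv_cancel₀ hm0])
    have h3 := congrArg res h2
    rw [map_mul, h1, zero_mul, map_one] at h3
    exact zero_ne_one h3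
  · intro k hk
    have h1 : (ser (vBB M O hM hζ) γ).coeff k = 0 := Subtype.ext (by rw [hc, hpos k hk]; rfl)
    rw [e_apply, coeffMap_coeff, h1, map_zero]

/-! ### conjugates of a `Γ₀(M)`-invariant element -/

/-- the conjugates of an element, indexed by `SL₂(ℤ)/Γ₀(M)`. -/
def cj (x : BB M O) (q : Cos M) : BB M O := (Quotient.out q : SL(2, ℤ)) • x

theorem cj_mk {x : BB M O} (hx : ∀ β ∈ Gamma0 M, β • x = x) (g : SL(2, ℤ)) :
    cj x (QuotientGroup.mk g : Cos M) = g • x := by
  obtain ⟨h, hh⟩ := QuotientGroup.mk_out_eq_mul (Gamma0 M) g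
  unfold cj
  rw [hh, mul_smul, hx _ h.2]

theorem smul_cj {x : BB M O} (hx : ∀ β ∈ Gamma0 M, β • x = x) (g : SL(2, ℤ)) (q : Cos M) :
    g • cj x q = cj x (g • q) := by
  have hq : (g • q : Cos M) = ((g * Quotient.out q : SL(2, ℤ)) : Cos M) := by
    conv_lhs => rw [← QuotientGroup.out_eq' q]
    rfl
  rw [hq, cj_mk hx, mul_smul]
  rfl


/-! ### characteristic polynomial and Lagrange numerators -/

section Poly

variable [Fintype (Cos M)] [DecidableEq (Cos M)]

/-- the characteristic polynomial of a `Γ₀(M)`-invariant element. -/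
def charP (V : BB M O) : (BB M O)[X] := ∏ k : Cos M, (X - C (cj V k))

/-- the Lagrange numerator. -/
def lagr (V x : BB M O) : (BB M O)[X] :=
  ∑ q : Cos M, C (cj x q) * ∏ k ∈ Finset.univ.erase q, (X - C (cj V k))

theorem charP_invariant {V : BB M O} (hV : ∀ β ∈ Gamma0 M, β • V = V) (g : SL(2, ℤ)) :
    (charP V).map (MulSemiringAction.toRingHom SL(2, ℤ) (BB M O) g) = charP V := by
  unfold charP
  simp only [Polynomial.map_prod, Polynomial.map_sub, Polynomial.map_X, Polynomial.map_C,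
    MulSemiringAction.toRingHom_apply, smul_cj hV]
  exact Equiv.prod_comp (MulAction.toPerm g) (fun k : Cos M => (X - C (cj V k) : (BB M O)[X]))

theorem Qep0_prod_erase {A : Type*} [CommMonoid A] (σ : Equiv.Perm (Cos M)) (φ : Cos M → A)
    (i : Cos M) :
    ∏ k ∈ Finset.univ.erase i, φ (σ k) = ∏ k ∈ Finset.univ.erase (σ i), φ k := by
  refine Finset.prod_bij (fun k _ => σ k) ?_ ?_ ?_ ?_
  · intro k hk
    simp only [Finset.mem_erase, Finset.mem_univ, and_true] at hk ⊢
    exact fun h => hk (σ.injective h)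
  · intro k _ k' _ h
    exact σ.injective h
  · intro k hk
    refine ⟨σ.symm k, ?_, by simp⟩
    simp only [Finset.mem_erase, Finset.mem_univ, and_true] at hk ⊢
    intro h
    exact hk (by rw [← h]; simp)
  · intro k _
    rfl

theorem lagr_invariant {V x : BB M O} (hV : ∀ β ∈ Gamma0 M, β • V = V)
    (hx : ∀ β ∈ Gamma0 M, β • x = x) (g : SL(2, ℤ)) :
    (lagr V x).map (MulSemiringAction.toRingHom SL(2, ℤ) (BB M O) g) = lagr V x := by
  unfold lagr
  simp only [Polynomial.map_sum, Polynomial.map_mul, Polynomial.map_prod, Polynomial.map_sub,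
    Polynomial.map_X, Polynomial.map_C, MulSemiringAction.toRingHom_apply, smul_cj hV, smul_cj hx]
  have h3 : ∀ i : Cos M, ∏ k ∈ Finset.univ.erase i, (X - C (cj V (g • k)) : (BB M O)[X]) =
      ∏ k ∈ Finset.univ.erase (g • i), (X - C (cj V k)) := fun i =>
    Qep0_prod_erase (MulAction.toPerm g) (fun k => (X - C (cj V k) : (BB M O)[X])) i
  simp only [h3]
  exact Equiv.sum_comp (MulAction.toPerm g)
    (fun i : Cos M => C (cj x i) * ∏ k ∈ Finset.univ.erase i, (X - C (cj V k) : (BB M O)[X]))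

theorem charP_monic (V : BB M O) : (charP V).Monic :=
  monic_prod_of_monic _ _ fun k _ => monic_X_sub_C _

theorem natDegree_lagr_lt (V x : BB M O) : (lagr V x).natDegree < Fintype.card (Cos M) := by
  have hpos : 0 < Fintype.card (Cos M) := Fintype.card_pos_iff.mpr ⟨QuotientGroup.mk 1⟩
  have h : (lagr V x).natDegree ≤ Fintype.card (Cos M) - 1 := by
    unfold lagr
    refine natDegree_sum_le_of_forall_le _ _ fun q _ => ?_
    refine (natDegree_C_mul_le _ _).trans ?_
    rw [natDegree_prod_of_monic _ _ fun k _ => monic_X_sub_C _]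
    simp [Finset.card_erase_of_mem]
  omega

/-- evaluation of a Lagrange numerator at a node. -/
theorem Qep0_eval_lagr {A : Type*} [CommRing A] (a y : Cos M → A) (q : Cos M) :
    (∑ i : Cos M, C (a i) * ∏ k ∈ Finset.univ.erase i, (X - C (y k))).eval (y q) =
      a q * ∏ k ∈ Finset.univ.erase q, (y q - y k) := by
  rw [Polynomial.eval_finset_sum, Finset.sum_eq_single q]
  · simp [Polynomial.eval_prod]
  · intro i _ hi
    rw [Polynomial.eval_mul, Polynomial.eval_prod,
      Finset.prod_eq_zero (Finset.mem_erase.mpr ⟨Ne.symm hi, Finset.mem_univ q⟩), mul_zero]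
    simp
  · intro h
    exact absurd (Finset.mem_univ q) h

end Poly


/-! ### reduction -/

section Red

variable [Fintype (Cos M)] [DecidableEq (Cos M)] {κ : Type*} [Field κ] (res : O →+* κ)

/-- reduction of a polynomial coming from `O[j][Y]`. -/
theorem Qep0_map_map (Q₀ : O[X][X]) (γ : SL(2, ℤ)) :
    (Q₀.map (Polynomial.mapRingHom res)).map (evP κ (JN κ M)) =
      (Q₀.map (evP O (jBB M O))).map (e res γ) := by
  rw [Polynomial.map_map, Polynomial.map_map, Qep0_e_comp_evP]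

include hM hζ in
/-- the reduction of the characteristic polynomial of the unit is irreducible. -/
theorem Qep0_setup :
    ∃ W : κ[X][X], W.Monic ∧ W.natDegree = Fintype.card (Cos M) ∧
      Irreducible (W.map (algebraMap κ[X] (FractionRing κ[X]))) ∧
      W.map (evP κ (JN κ M)) = ∏ k : Cos M, (X - C (e res 1 (cj (vBB M O hM hζ) k))) ∧
      ∀ k : Cos M, k ≠ QuotientGroup.mk 1 →
        e res 1 (cj (vBB M O hM hζ) (QuotientGroup.mk 1)) ≠ e res 1 (cj (vBB M O hM hζ) k) := by
  set V := vBB M O hM hζ with hV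
  have hVinv : ∀ β ∈ Gamma0 M, β • V = V := fun β hβ => smul_vBB hM hζ hβ
  obtain ⟨W₀, hW₀⟩ := exists_map_evP_of_invariant (charP V) (charP_invariant hVinv)
  have hW₀m : W₀.Monic :=
    Polynomial.monic_of_injective Qep0_evP_jBB_injective (hW₀ ▸ charP_monic V)
  set q₀ : Cos M := QuotientGroup.mk 1 with hq₀
  set y : Cos M → LaurentSeries κ := fun k => e res 1 (cj V k) with hy
  have hmap : (W₀.map (Polynomial.mapRingHom res)).map (evP κ (JN κ M)) =
      ∏ k : Cos M, (X - C (y k)) := by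
    rw [Qep0_map_map res W₀ 1, hW₀]
    unfold charP
    simp only [Polynomial.map_prod, Polynomial.map_sub, Polynomial.map_X, Polynomial.map_C, hy]
  have hWm : (W₀.map (Polynomial.mapRingHom res)).Monic := hW₀m.map _
  have hdeg : (W₀.map (Polynomial.mapRingHom res)).natDegree = Fintype.card (Cos M) := by
    rw [← hWm.natDegree_map (evP κ (JN κ M)), hmap,
      natDegree_prod_of_monic _ _ fun k _ => monic_X_sub_C _]
    simp
  have hfac : (W₀.map (Polynomial.mapRingHom res)).map (evP κ (JN κ M)) =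
      (X - C (y q₀)) * (((Finset.univ.erase q₀).val.map y).map fun v => X - C v).prod := by
    rw [hmap, ← Finset.mul_prod_erase Finset.univ _ (Finset.mem_univ q₀), Multiset.map_map]
    rfl
  have hvs : ∀ v ∈ (Finset.univ.erase q₀).val.map y, v ≠ 0 ∧ ∀ m : ℤ, m ≤ 0 → v.coeff m = 0 := by
    intro v hv
    obtain ⟨q, hq, rfl⟩ := Multiset.mem_map.mp hv
    have hq' : q ≠ q₀ := Finset.ne_of_mem_erase hq
    have h1 : y q = e res (cosRep M q) V := by
      simp only [hy, cj, e_smul, mul_one]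
      rfl
    rw [h1]
    exact e_vBB_of_not_mem hM hζ res (cosRep_not_mem M hq')
  have hJ := exists_coeff_ne_zero_of_pole (k := κ) _ (order_qExpand_jqModC_neg κ M)
  refine ⟨_, hWm, hdeg, irreducible_of_roots (k := κ) (κ := κ) (JN κ M) hJ _ hWm (y q₀) _ hvs hfac,
    hmap, ?_⟩
  intro k hk heq
  have hnot := not_mem_of_roots (k := κ) (κ := κ) (JN κ M) hJ _ (y q₀) _ hvs hfac
  apply hnot
  rw [show y q₀ = y k from heq]
  exact Multiset.mem_map_of_mem _ (Finset.mem_erase.mpr ⟨hk, Finset.mem_univ k⟩)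

include hM hζ in
/-- the key step: a Lagrange numerator which vanishes mod `res` at one node vanishes at all. -/
theorem Qep0_key {x : BB M O} (hx : ∀ β ∈ Gamma0 M, β • x = x) (q₁ q : Cos M)
    (h : e res 1 (cj x q₁) * ∏ k ∈ Finset.univ.erase q₁,
      (e res 1 (cj (vBB M O hM hζ) q₁) - e res 1 (cj (vBB M O hM hζ) k)) = 0) :
    e res 1 (cj x q) * ∏ k ∈ Finset.univ.erase q,
      (e res 1 (cj (vBB M O hM hζ) q) - e res 1 (cj (vBB M O hM hζ) k)) = 0 := by
  obtain ⟨W, hWm, hWdeg, hirr, hWmap, -⟩ := Qep0_setup hM hζ res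
  set V := vBB M O hM hζ with hV
  have hVinv : ∀ β ∈ Gamma0 M, β • V = V := fun β hβ => smul_vBB hM hζ hβ
  obtain ⟨G₀, hG₀⟩ := exists_map_evP_of_invariant (lagr V x) (lagr_invariant hVinv hx)
  have hGmap : (G₀.map (Polynomial.mapRingHom res)).map (evP κ (JN κ M)) =
      ∑ i : Cos M, C (e res 1 (cj x i)) *
        ∏ k ∈ Finset.univ.erase i, (X - C (e res 1 (cj V k))) := by
    rw [Qep0_map_map res G₀ 1, hG₀]
    unfold lagr
    simp only [Polynomial.map_sum, Polynomial.map_mul, Polynomial.map_prod, Polynomial.map_sub,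
      Polynomial.map_X, Polynomial.map_C]
  have hGdeg : (G₀.map (Polynomial.mapRingHom res)).natDegree < W.natDegree := by
    rw [hWdeg]
    refine lt_of_le_of_lt natDegree_map_le ?_
    rw [← natDegree_map_eq_of_injective (Qep0_evP_jBB_injective (M := M) (O := O)) G₀, hG₀]
    exact natDegree_lagr_lt V x
  have hzero : G₀.map (Polynomial.mapRingHom res) = 0 := by
    refine eq_zero_of_eval₂_eq_zero_of_natDegree_lt (evP κ (JN κ M))
      (evP_injective_of_pole _ (order_qExpand_jqModC_neg κ M)) W hWm hirr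
      (e res 1 (cj V q₁)) ?_ _ ?_ hGdeg
    · rw [Polynomial.eval₂_eq_eval_map, hWmap, Polynomial.eval_prod]
      exact Finset.prod_eq_zero (Finset.mem_univ q₁) (by simp)
    · rw [Polynomial.eval₂_eq_eval_map, hGmap,
        Qep0_eval_lagr (fun i => e res 1 (cj x i)) (fun k => e res 1 (cj V k)) q₁]
      exact h
  rw [← Qep0_eval_lagr (fun i => e res 1 (cj x i)) (fun k => e res 1 (cj V k)) q, ← hGmap, hzero]
  simp

end Red

/-- **The `q`-expansion principle for `Γ₀(M)`.** -/
theorem qep0 {M : ℕ} [NeZero M] {O : Subring ℂ} (hM : ((M : ℂ))⁻¹ ∈ O)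
    (hζ : ∀ ζ : ℂ, ζ ^ M = 1 → ζ ∈ O) {κ : Type*} [Field κ] (res : O →+* κ) (f : BB M O)
    (hf : ∀ β ∈ CongruenceSubgroup.Gamma0 M, β • f = f) (g : SL(2, ℤ)) :
    e res 1 (g • f) = 0 ↔ e res 1 f = 0 := by
  classical
  have : Fintype (Cos M) := Fintype.ofFinite _
  set V := vBB M O hM hζ with hV
  set D : Cos M → LaurentSeries κ := fun q =>
    ∏ k ∈ Finset.univ.erase q, (e res 1 (cj V q) - e res 1 (cj V k)) with hD
  obtain ⟨-, -, -, -, -, hne⟩ := Qep0_setup hM hζ res
  have hD0 : D (QuotientGroup.mk 1) ≠ 0 := by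
    simp only [hD]
    refine Finset.prod_ne_zero_iff.mpr fun k hk => sub_ne_zero.mpr (hne k ?_)
    exact Finset.ne_of_mem_erase hk
  have hone : ∀ β ∈ Gamma0 M, β • (1 : BB M O) = 1 := fun β _ => smul_one β
  have hDne : ∀ q, D q ≠ 0 := by
    intro q hq
    apply hD0
    have := Qep0_key hM hζ res hone q (QuotientGroup.mk 1) (by
      show e res 1 (cj 1 q) * D q = 0
      rw [hq, mul_zero])
    have h1 : cj (1 : BB M O) (QuotientGroup.mk 1 : Cos M) = 1 := smul_one _
    rw [h1, map_one, one_mul] at this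
    exact this
  have key : ∀ q₁ q : Cos M, e res 1 (cj f q₁) = 0 → e res 1 (cj f q) = 0 := by
    intro q₁ q h
    have := Qep0_key hM hζ res hf q₁ q (by rw [h, zero_mul])
    exact (mul_eq_zero.mp this).resolve_right (hDne q)
  have h1 : cj f (QuotientGroup.mk g : Cos M) = g • f := cj_mk hf g
  have h2 : cj f (QuotientGroup.mk 1 : Cos M) = f := by rw [cj_mk hf, one_smul]
  rw [← h1]
  conv_rhs => rw [← h2]
  exact ⟨key _ _, key _ _⟩

end

end Fermat.Agent.G1.IG
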