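import Mathlib

/-!
# G1-IG: the facts on `SL(2, ℤ)` used by the abstract core
-/

set_option autoImplicit false

namespace Fermat.Agent.G1.IG

open Matrix Matrix.SpecialLinearGroup ModularGroup CongruenceSubgroup

local notation "SL(" n ", " R ")" => Matrix.SpecialLinearGroup (Fin n) R

theorem SL2_TSTST : (T * S * T * S * T : SL(2, ℤ)) = S := by
  ext i j
  fin_cases i <;> fin_cases j <;>
    simp [Matrix.SpecialLinearGroup.coe_mul, ModularGroup.coe_S, ModularGroup.coe_T,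
      Matrix.mul_apply, Fin.sum_univ_two]

theorem SL2_S_eq : (S : SL(2, ℤ)) = T⁻¹ * (S * T⁻¹ * S⁻¹) * T⁻¹ := by
  have h1 : (S * T⁻¹ * S⁻¹ : SL(2, ℤ)) = T * S * T := by
    calc (S * T⁻¹ * S⁻¹ : SL(2, ℤ)) = (T * S * T * S * T) * T⁻¹ * S⁻¹ := by rw [SL2_TSTST]
      _ = T * S * T := by group
  rw [h1]
  group

/-- the conjugates of `T` generate `SL(2, ℤ)`. -/
theorem SL2_normalClosure_T : Subgroup.normalClosure {(T : SL(2, ℤ))} = ⊤ := by
  rw [eq_top_iff, ← SpecialLinearGroup.SL2Z_generators, Subgroup.closure_le]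
  have hT : (T : SL(2, ℤ)) ∈ Subgroup.normalClosure {(T : SL(2, ℤ))} :=
    Subgroup.subset_normalClosure (Set.mem_singleton _)
  have hT' := (Subgroup.normalClosure {(T : SL(2, ℤ))}).inv_mem hT
  intro x hx
  rcases hx with rfl | hx
  · change (S : SL(2, ℤ)) ∈ Subgroup.normalClosure {(T : SL(2, ℤ))}
    rw [SL2_S_eq]
    exact Subgroup.mul_mem _ (Subgroup.mul_mem _ hT'
      (Subgroup.normalClosure_normal.conj_mem _ hT' S)) hT'
  · rw [Set.mem_singleton_iff] at hx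
    rw [hx]
    exact hT

theorem SL2_Gamma_le_Gamma0 (M : ℕ) : Gamma M ≤ Gamma0 M := by
  intro γ hγ
  rw [Gamma_mem] at hγ
  rw [Gamma0_mem]
  exact hγ.2.2.1

/-- `β T β⁻¹ ≡ T ^ (a ^ 2)` modulo `Γ(M)` for `β ∈ Γ₀(M)`. -/
theorem SL2_conj_T (M : ℕ) {β : SL(2, ℤ)} (hβ : β ∈ Gamma0 M) :
    ∃ k : ℤ, (β * T * β⁻¹) * (T ^ k)⁻¹ ∈ Gamma M := by
  refine ⟨(β 0 0) ^ 2, ?_⟩
  rw [Gamma0_mem] at hβ
  have hdet : β 0 0 * β 1 1 - β 0 1 * β 1 0 = 1 := by
    have := β.det_coe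
    rwa [Matrix.det_fin_two] at this
  rw [Gamma_mem, ← _root_.zpow_neg]
  have hc : ((β 1 0 : ℤ) : ZMod M) = 0 := hβ
  simp only [Matrix.SpecialLinearGroup.coe_mul, ModularGroup.coe_T_zpow,
    Matrix.SpecialLinearGroup.coe_inv, Matrix.adjugate_fin_two, ModularGroup.coe_T,
    Matrix.mul_apply, Fin.sum_univ_two, Matrix.of_apply, Matrix.cons_val_zero,
    Matrix.cons_val_one, Matrix.cons_val', Matrix.cons_val_fin_one]
  have hdet' : ((β 0 0 : ℤ) : ZMod M) * ((β 1 1 : ℤ) : ZMod M) = 1 := by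
    have := congrArg (Int.cast : ℤ → ZMod M) hdet
    push_cast at this
    rw [hc, mul_zero, sub_zero] at this
    exact this
  push_cast
  rw [hc]
  refine ⟨?_, ?_, ?_, ?_⟩
  · linear_combination hdet'
  · linear_combination (-(β 0 0 : ZMod M) ^ 2) * hdet'
  · ring
  · linear_combination hdet'

end Fermat.Agent.G1.IG
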