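import Fermat.Agent.G1.IG.TInv
import Fermat.Agent.G1.IG.Qep0
import Fermat.Agent.G1.IG.Abs
import Fermat.Agent.G1.IG.SL2

/-!
# G1-IG (INV): the `q`-expansion principle at level `Γ(M)`
-/

set_option autoImplicit false

open UpperHalfPlane CongruenceSubgroup ModularCurve
open scoped MatrixGroups Manifold

namespace Fermat.Agent.G1.IG

open Fermat.Agent.S28

noncomputable section

/-- **(INV)**, symmetric form. -/
theorem inv_iff {M : ℕ} [NeZero M] {O : Subring ℂ} (hM : ((M : ℂ))⁻¹ ∈ O)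
    (hζ : ∀ ζ : ℂ, ζ ^ M = 1 → ζ ∈ O) {κ : Type*} [Field κ] (res : O →+* κ)
    (g : SL(2, ℤ)) (p : BB M O) : e res 1 (g • p) = 0 ↔ e res 1 p = 0 := by
  haveI : (RingHom.ker (e (M := M) res 1)).IsPrime := RingHom.ker_isPrime _
  have h := stab_eq_top (G := SL(2, ℤ)) (B := BB M O) (Gamma M) (Gamma0 M) (SL2_Gamma_le_Gamma0 M)
    (fun γ hγ f => BB.smul_of_mem_Gamma hγ f) (RingHom.ker (e (M := M) res 1)) ModularGroup.T
    (fun f hf => (RingHom.mem_ker).mpr (e_T_smul hζ res f ((RingHom.mem_ker).mp hf)))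
    (fun f hf g => by
      rw [RingHom.mem_ker, RingHom.mem_ker]
      exact qep0 hM hζ res f hf g)
    (fun β hβ => SL2_conj_T M hβ) SL2_normalClosure_T g p
  rwa [RingHom.mem_ker, RingHom.mem_ker] at h

/-- **(INV)**. -/
theorem inv {M : ℕ} [NeZero M] {O : Subring ℂ} (hM : ((M : ℂ))⁻¹ ∈ O)
    (hζ : ∀ ζ : ℂ, ζ ^ M = 1 → ζ ∈ O) {κ : Type*} [Field κ] (res : O →+* κ) : INV M O res := by
  intro p γ h
  rw [e_eq_one_smul]
  exact (inv_iff hM hζ res γ⁻¹ p).mpr h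

end

end Fermat.Agent.G1.IG
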