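import Fermat.Agent.G1.IG.VData
import Fermat.Agent.GR.D.Vert.Model

/-!
# G1-IG: from the output `(C1)-(C4)` of the core (`CoreSpec`) to the model `Model1 N ℓ` over `ℤ_(ℓ)`

`CoreSpec M n V S O res` is the conclusion of `IG.core` for the element with expansion `V` at `∞`.
It is used for two instances: `(⊤, ℂ)` (rationality: the polynomial `W` is unique by `(C2)`, hence
fixed by a `ℚ`-linear retraction `ℂ → ℚ`) and `(O, κ)`, `O` a valuation ring of `ℂ` above `ℓ`
(integrality at `ℓ`, independence and simplicity of the root modulo `ℓ`).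
-/

set_option autoImplicit false

namespace Fermat.Agent.G1.IG

open ModularCurve Polynomial Fermat.Agent.S28 Fermat.Agent.G1

noncomputable section

/-- the output of the core. -/
def CoreSpec (M : ℕ) [NeZero M] (n : ℕ) (V : LaurentSeries ℤ) (S : Set (LaurentSeries ℤ))
    (O : Subring ℂ) {κ : Type*} [Field κ] (res : O →+* κ) : Prop :=
  ∃ W : O[X][X], W.Monic ∧ W.natDegree = n ∧
    W.eval₂ (evP O (JN O M)) (iotaN O M V) = 0 ∧
    (∀ u : Fin n → κ[X], ∑ i, evP κ (JN κ M) (u i) * iotaN κ M V ^ (i : ℕ) = 0 → u = 0) ∧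
    ((derivative W).map (Polynomial.mapRingHom res)).eval₂ (evP κ (JN κ M)) (iotaN κ M V) ≠ 0 ∧
    ∀ s ∈ S, ∃ G : O[X][X], G.eval₂ (evP O (JN O M)) (iotaN O M V)
      = iotaN O M s * (derivative W).eval₂ (evP O (JN O M)) (iotaN O M V)

theorem eq_zero_of_indep {κ L : Type*} [CommRing κ] [CommRing L] (φ : κ[X] →+* L) (v : L) (n : ℕ)
    (hind : ∀ u : Fin n → κ[X], ∑ i, φ (u i) * v ^ (i : ℕ) = 0 → u = 0)
    (P : κ[X][X]) (hdeg : ∀ m, n ≤ m → P.coeff m = 0) (hP : P.eval₂ φ v = 0) : P = 0 := by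
  by_contra h0
  have hlt : P.natDegree < n :=
    (natDegree_lt_iff_degree_lt h0).mpr ((degree_lt_iff_coeff_zero _ _).mpr hdeg)
  have h := hind (fun i => P.coeff i) (by
    rw [eval₂_eq_sum_range' _ hlt] at hP
    rw [Fin.sum_univ_eq_sum_range (fun i => φ (P.coeff i) * v ^ i) n]
    exact hP)
  apply h0
  ext1 m
  by_cases hm : m < n
  · exact congrFun h ⟨m, hm⟩
  · exact hdeg m (not_lt.mp hm)

theorem eq_of_monic_of_indep {κ L : Type*} [CommRing κ] [CommRing L] (φ : κ[X] →+* L) (v : L)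
    (n : ℕ) (hind : ∀ u : Fin n → κ[X], ∑ i, φ (u i) * v ^ (i : ℕ) = 0 → u = 0)
    (P Q : κ[X][X]) (hP : P.Monic) (hQ : Q.Monic) (hPn : P.natDegree = n) (hQn : Q.natDegree = n)
    (hP0 : P.eval₂ φ v = 0) (hQ0 : Q.eval₂ φ v = 0) : P = Q := by
  apply sub_eq_zero.mp
  apply eq_zero_of_indep φ v n hind
  · intro m hm
    rw [coeff_sub]
    rcases hm.eq_or_lt with rfl | hlt
    · have h1 := hP.coeff_natDegree
      have h2 := hQ.coeff_natDegree
      rw [hPn] at h1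
      rw [hQn] at h2
      rw [h1, h2, sub_self]
    · rw [coeff_eq_zero_of_natDegree_lt (hPn ▸ hlt), coeff_eq_zero_of_natDegree_lt (hQn ▸ hlt),
        sub_self]
  · rw [eval₂_sub, hP0, hQ0, sub_self]

theorem coeffMap_eval₂_JN {A B : Type*} [CommRing A] [CommRing B] (f : A →+* B) (N : ℕ) [NeZero N]
    (V : LaurentSeries ℤ) (P : A[X][X]) :
    coeffMap f (P.eval₂ (evP A (JN A N)) (iotaN A N V))
      = (P.map (Polynomial.mapRingHom f)).eval₂ (evP B (JN B N)) (iotaN B N V) := by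
  rw [map_eval₂_evP f (coeffMap f) (coeffMap_algebraMap' f f fun _ => rfl), coeffMap_JN,
    coeffMap_iotaN]

theorem qExpand_eval₂_jqModC {A : Type*} [CommRing A] (N : ℕ) [NeZero N]
    (V : LaurentSeries ℤ) (P : A[X][X]) :
    qExpand A N (P.eval₂ (evP A (jqModC A)) (coeffMap (Int.castRingHom A) V))
      = P.eval₂ (evP A (JN A N)) (iotaN A N V) := by
  rw [map_eval₂_evP (RingHom.id A) (qExpand A N) (fun a => qExpand_algebraMap N a)]
  have hid : Polynomial.mapRingHom (RingHom.id A) = RingHom.id _ := by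
    ext <;> simp
  rw [hid, Polynomial.map_id]
  rfl

/-- rationality of the polynomial `W` from its uniqueness. -/
theorem eq_map_mapAdd_of_indep (π : ℂ →+ ℚ) (hπ : ∀ (r : ℚ) (c : ℂ), π ((r : ℂ) * c) = r * π c)
    (hπ1 : π 1 = 1) (x y : LaurentSeries ℚ) (W : ℂ[X][X]) (hW : W.Monic)
    (hind : ∀ u : Fin W.natDegree → ℂ[X],
      ∑ i, evP ℂ (embQC x) (u i) * embQC y ^ (i : ℕ) = 0 → u = 0)
    (hy : W.eval₂ (evP ℂ (embQC x)) (embQC y) = 0) :
    W = (mapAdd (mapAdd π) W).map (Polynomial.mapRingHom (algebraMap ℚ ℂ)) := by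
  set W' := (mapAdd (mapAdd π) W).map (Polynomial.mapRingHom (algebraMap ℚ ℂ)) with hW'
  have hy' : W'.eval₂ (evP ℂ (embQC x)) (embQC y) = 0 := by
    rw [hW', ← map_eval₂_evP (algebraMap ℚ ℂ) embQC embQC_algebraMap, ← map_pi_eval₂ π hπ, hy]
    have : (0 : LaurentSeries ℂ).map π = 0 := by
      ext m; simp
    rw [this, map_zero]
  have hone : mapAdd π (1 : ℂ[X]) = 1 := by
    have : (1 : ℂ[X]) = monomial 0 1 := rfl
    rw [this, mapAdd_monomial, hπ1]
    rfl
  have hcoeff : ∀ m, W.natDegree ≤ m → (W - W').coeff m = 0 := by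
    intro m hm
    rw [coeff_sub, hW', coeff_map, coeff_mapAdd]
    rcases hm.eq_or_lt with rfl | hlt
    · rw [hW.coeff_natDegree, hone]
      simp
    · rw [coeff_eq_zero_of_natDegree_lt hlt]
      simp
  apply sub_eq_zero.mp
  apply eq_zero_of_indep _ _ _ hind _ hcoeff
  rw [eval₂_sub, hy, hy', sub_zero]

/-- **The model over `ℤ_(ℓ)` from the two instances of the core.** -/
theorem model1_of_coreSpec (N : ℕ) [NeZero N] (ℓ : ℕ) [Fact ℓ.Prime] (n : ℕ) (V : LaurentSeries ℤ)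
    (S : Set (LaurentSeries ℤ))
    (hSj : ∀ (d : ℕ) [NeZero d], d ∣ N → qExpand ℤ d (jqModC ℤ) ∈ S)
    (hSu : ∀ (d : ℕ) [NeZero d] (b : ZMod N), d ∣ N → b ≠ 0 → uB ℤ N d b ∈ S)
    (resC : (⊤ : Subring ℂ) →+* ℂ) (hC : CoreSpec N n V S ⊤ resC)
    (O : Subring ℂ) {κ : Type*} [Field κ] [CharP κ ℓ] (res : O →+* κ)
    (hOQ : ∀ x : ℚ, (x : ℂ) ∈ O ↔ x ∈ GaloisRep.ratLocalizedAt ℓ)
    (hO : CoreSpec N n V S O res) : Model1 N ℓ := by
  obtain ⟨WT, hWTm, hWTn, hWTroot, hindC, -, hGT⟩ := hC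
  obtain ⟨WO, hWOm, hWOn, hWOroot, hindκ, hsimpκ, -⟩ := hO
  obtain ⟨π, hπ, hπ1⟩ := exists_rat_retraction
  let sT : (⊤ : Subring ℂ) →+* ℂ := (⊤ : Subring ℂ).subtype
  let sQ : Rl ℓ →+* ℚ := (GaloisRep.ratLocalizedAt ℓ).subtype
  have hsQ : Function.Injective sQ := Subtype.val_injective
  -- the polynomial over `ℂ`
  set WC : ℂ[X][X] := WT.map (Polynomial.mapRingHom sT) with hWC
  have hWCm : WC.Monic := hWTm.map _
  have hWCn : WC.natDegree = n := by rw [hWC, hWTm.natDegree_map, hWTn]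
  have hWCroot : WC.eval₂ (evP ℂ (JN ℂ N)) (iotaN ℂ N V) = 0 := by
    rw [hWC, ← coeffMap_eval₂_JN, hWTroot, map_zero]
  have hx : embQC (JN ℚ N) = JN ℂ N := coeffMap_JN _ N
  have hy : embQC (iotaN ℚ N V) = iotaN ℂ N V := coeffMap_iotaN _ N V
  -- rationality
  have hW : WC = (mapAdd (mapAdd π) WC).map (Polynomial.mapRingHom (algebraMap ℚ ℂ)) := by
    apply eq_map_mapAdd_of_indep π hπ hπ1 (JN ℚ N) (iotaN ℚ N V) WC hWCm
    · rw [hx, hy, hWCn]
      exact hindC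
    · rw [hx, hy]
      exact hWCroot
  set WQ : ℚ[X][X] := mapAdd (mapAdd π) WC with hWQ
  -- integrality at `ℓ`
  have hWO : WO.map (Polynomial.mapRingHom O.subtype) = WC := by
    apply eq_of_monic_of_indep _ _ n hindC _ _ (hWOm.map _) hWCm _ hWCn _ hWCroot
    · rw [hWOm.natDegree_map, hWOn]
    · rw [← coeffMap_eval₂_JN, hWOroot, map_zero]
  obtain ⟨W₁, hW₁⟩ : ∃ W₁ : (Rl ℓ)[X][X], W₁.map (Polynomial.mapRingHom sQ) = WQ := by
    apply exists_map_mapRingHom_eq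
    intro b a
    have h1 : (WC.coeff b).coeff a ∈ O := by
      rw [← hWO, coeff_map, coe_mapRingHom, coeff_map]
      exact (( WO.coeff b).coeff a).2
    rw [hW, coeff_map, coe_mapRingHom, coeff_map] at h1
    exact ⟨⟨_, (hOQ _).mp h1⟩, rfl⟩
  have hW₁m : W₁.Monic := by
    have hinj : Function.Injective (Polynomial.mapRingHom sQ) := Polynomial.map_injective sQ hsQ
    apply Polynomial.monic_of_injective hinj
    rw [hW₁]
    have hinj' : Function.Injective (Polynomial.mapRingHom (algebraMap ℚ ℂ)) :=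
      Polynomial.map_injective _ (algebraMap ℚ ℂ).injective
    apply Polynomial.monic_of_injective hinj'
    rw [← hW]
    exact hWCm
  have hW₁C : W₁.map (Polynomial.mapRingHom ((algebraMap ℚ ℂ).comp sQ)) = WC := by
    rw [← map_mapRingHom_comp, hW₁, ← hW]
  have hW₁n : W₁.natDegree = n := by
    rw [← hWCn, ← hW₁C, hW₁m.natDegree_map]
  have hroot₁ : W₁.eval₂ (evP (Rl ℓ) (jqModC (Rl ℓ))) (coeffMap (Int.castRingHom (Rl ℓ)) V)
      = 0 := by
    apply qExpand_injective N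
    rw [qExpand_eval₂_jqModC, map_zero]
    apply coeffMap_injective ((algebraMap ℚ ℂ).comp sQ)
      ((algebraMap ℚ ℂ).injective.comp hsQ)
    rw [coeffMap_eval₂_JN, hW₁C, hWCroot, map_zero]
  -- the interpolation identities
  have hG : ∀ s ∈ S, ∃ G₀ : ℚ[X][X],
      G₀.eval₂ (evP ℚ jq) (coeffMap (Int.castRingHom ℚ) V)
        = coeffMap (Int.castRingHom ℚ) s *
          (derivative WQ).eval₂ (evP ℚ jq) (coeffMap (Int.castRingHom ℚ) V) := by
    intro s hs
    obtain ⟨G, hG⟩ := hGT s hs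
    have hGC : (G.map (Polynomial.mapRingHom sT)).eval₂ (evP ℂ (JN ℂ N)) (iotaN ℂ N V)
        = embQC (iotaN ℚ N s * (derivative WQ).eval₂ (evP ℚ (JN ℚ N)) (iotaN ℚ N V)) := by
      rw [← coeffMap_eval₂_JN, hG, map_mul, coeffMap_iotaN, coeffMap_eval₂_JN,
        ← Polynomial.derivative_map, ← hWC, map_mul, coeffMap_iotaN, coeffMap_eval₂_JN,
        ← Polynomial.derivative_map, ← hW]
    refine ⟨mapAdd (mapAdd π) (G.map (Polynomial.mapRingHom sT)), ?_⟩
    have h1 := map_pi_eval₂ π hπ (JN ℚ N) (iotaN ℚ N V) (G.map (Polynomial.mapRingHom sT))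
    rw [hx, hy, hGC, map_pi_embQC π hπ hπ1] at h1
    apply qExpand_injective N
    rw [← jqModC_rat, qExpand_eval₂_jqModC, ← h1, map_mul, qExpand_eval₂_jqModC]
    rfl
  -- reduction
  let _ : Algebra (ZMod ℓ) κ := ZMod.algebra κ ℓ
  let gO : Rl ℓ →+* O := ((algebraMap ℚ ℂ).comp sQ).codRestrict O (fun x => (hOQ _).mpr x.2)
  have hgO : O.subtype.comp gO = (algebraMap ℚ ℂ).comp sQ := rfl
  have hW₁O : W₁.map (Polynomial.mapRingHom gO) = WO := by
    apply Polynomial.map_injective (Polynomial.mapRingHom O.subtype)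
      (Polynomial.map_injective _ Subtype.val_injective)
    rw [map_mapRingHom_comp, hgO, hW₁C, hWO]
  have hW₁κ : (W₁.map (Polynomial.mapRingHom (resid ℓ))).map
      (Polynomial.mapRingHom (algebraMap (ZMod ℓ) κ)) = WO.map (Polynomial.mapRingHom res) := by
    rw [map_mapRingHom_comp, ringHom_Rl_ext' ℓ ((algebraMap (ZMod ℓ) κ).comp (resid ℓ))
      (res.comp gO), ← map_mapRingHom_comp, hW₁O]
  refine ⟨V, W₁, hW₁m, hroot₁, ?_, ?_, ?_, ?_⟩
  · intro d _ hd
    obtain ⟨G₀, hG₀⟩ := hG _ (hSj d hd)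
    refine ⟨G₀, ?_⟩
    rw [hW₁, hG₀, coeffMap_qExpand, S28.coeffMap_jqModC, jqModC_rat]
  · intro d _ b hd hb
    obtain ⟨G₀, hG₀⟩ := hG _ (hSu d b hd hb)
    refine ⟨G₀, ?_⟩
    rw [hW₁, hG₀, coeffMap_uB]
  · subst hW₁n
    intro u hu
    have h1 := congrArg (fun z => qExpand κ N (coeffMap (algebraMap (ZMod ℓ) κ) z)) hu
    simp only [map_sum, map_mul, map_pow, map_zero] at h1
    have h2 := hindκ (fun i => (u i).map (algebraMap (ZMod ℓ) κ)) (by
      rw [← h1]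
      refine Finset.sum_congr rfl fun i _ => ?_
      rw [map_evP (algebraMap (ZMod ℓ) κ) (coeffMap (algebraMap (ZMod ℓ) κ))
        (coeffMap_algebraMap' _ _ fun _ => rfl), S28.coeffMap_jqModC,
        map_evP (RingHom.id κ) (qExpand κ N) (fun a => qExpand_algebraMap N a),
        Polynomial.map_id, coeffMap_coeffMap,
        coeffMap_congr (RingHom.ext_int _ (Int.castRingHom κ))]
      rfl)
    funext i
    apply Polynomial.map_injective _ (algebraMap (ZMod ℓ) κ).injective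
    rw [Pi.zero_apply, Polynomial.map_zero]
    exact congrFun h2 i
  · intro h0
    apply hsimpκ
    have h1 := congrArg (fun z => coeffMap (algebraMap (ZMod ℓ) κ) (qExpand (ZMod ℓ) N z)) h0
    simp only [map_zero] at h1
    rw [qExpand_eval₂_jqModC, coeffMap_eval₂_JN, ← Polynomial.derivative_map, hW₁κ,
      Polynomial.derivative_map] at h1
    exact h1

/-- level one: `FF1 K 1 = FF K 1`, the model of `GR` works. -/
theorem model1_one (ℓ : ℕ) [Fact ℓ.Prime] : Model1 1 ℓ := by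
  obtain ⟨V, W₁, h1, h2, h3, h4, h5⟩ := GR.D.Vert.exists_model 1 ℓ
    (fun h => (Fact.out : ℓ.Prime).one_lt.ne' (Nat.dvd_one.mp h))
  exact ⟨V, W₁, h1, h2, h3, fun d _ b _ hb => absurd (Subsingleton.elim b 0) hb, h4, h5⟩

end

end Fermat.Agent.G1.IG
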