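import Fermat.Agent.G1.IG.Ring
import Fermat.Agent.S28.NP
import Fermat.Agent.S28.DescMinpoly
import Fermat.Agent.S28.DescPeel
import Fermat.Agent.S28.DescChar0
import Fermat.Agent.S28.Analytic

/-!
# G1-IG, file `PolyJ`: `SL₂(ℤ)`-invariant elements of `BB M O` are polynomials in `j` over `O`

-/

set_option autoImplicit false

open UpperHalfPlane CongruenceSubgroup ModularCurve Polynomial
open scoped MatrixGroups Manifold

namespace Fermat.Agent.G1.IG

open Fermat.Agent.S28

noncomputable section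

variable {M : ℕ} [NeZero M] {O : Subring ℂ}

/-! ### polynomials in `j` -/

theorem Qep0_fn_aeval (P : O[X]) (τ : ℍ) :
    fn (Polynomial.aeval (jBB M O) P) τ = (P.map O.subtype).eval (jF τ) := by
  let φ : BB M O →+* ℂ := (Pi.evalRingHom (fun _ : ℍ => ℂ) τ).comp (fnHom M O)
  show φ (Polynomial.aeval (jBB M O) P) = _
  rw [Polynomial.aeval_def, Polynomial.hom_eval₂, Polynomial.eval_map]
  rfl

theorem Qep0_algebraMap_laurent {κ : Type*} [CommRing κ] (c : κ) :
    algebraMap κ (LaurentSeries κ) c = HahnSeries.C c := by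
  rw [algebraMap_laurent_eq_single]
  rfl

theorem Qep0_e_comp_evP {κ : Type*} [CommRing κ] (res : O →+* κ) (γ : SL(2, ℤ)) :
    (e res γ).comp (evP O (jBB M O)) = (evP κ (JN κ M)).comp (Polynomial.mapRingHom res) := by
  refine Polynomial.ringHom_ext (fun a => ?_) ?_
  · simp only [RingHom.comp_apply, evP, AlgHom.toRingHom_eq_coe, RingHom.coe_coe, aeval_C,
      coe_mapRingHom, map_C]
    rw [e_algebraMap, Qep0_algebraMap_laurent]
  · simp only [RingHom.comp_apply, evP, AlgHom.toRingHom_eq_coe, RingHom.coe_coe, aeval_X,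
      coe_mapRingHom, map_X]
    exact e_jBB res γ

theorem Qep0_e_aeval {κ : Type*} [CommRing κ] (res : O →+* κ) (γ : SL(2, ℤ)) (P : O[X]) :
    e res γ (Polynomial.aeval (jBB M O) P) = evP κ (JN κ M) (P.map res) :=
  congrArg (fun f : O[X] →+* LaurentSeries κ => f P) (Qep0_e_comp_evP res γ)

/-- `O[X] → BB M O`, `X ↦ j`, is injective. -/
theorem Qep0_evP_jBB_injective : Function.Injective (evP O (jBB M O)) := by
  intro P Q h
  have h1 := congrArg (e O.subtype 1) h
  have h2 : ∀ R : O[X], e O.subtype 1 (evP O (jBB M O) R) = evP ℂ (JN ℂ M) (R.map O.subtype) :=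
    fun R => Qep0_e_aeval O.subtype 1 R
  rw [h2, h2] at h1
  exact Polynomial.map_injective _ Subtype.val_injective
    (evP_injective_of_pole (k := ℂ) _ (order_qExpand_jqModC_neg ℂ M) h1)

/-- **an `SL₂(ℤ)`-invariant element of `BB M O` is a polynomial in `j` with coefficients in `O`.** -/
theorem exists_evP_of_invariant (p : BB M O) (hp : ∀ g : SL(2, ℤ), g • p = p) :
    ∃ P : O[X], p = Polynomial.aeval (jBB M O) P := by
  have hN : 0 < M := Nat.pos_of_ne_zero (NeZero.ne M)
  have hinv : ∀ (γ : SL(2, ℤ)) (τ : ℍ), fn p (γ • τ) = fn p τ := fun γ =>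
    (BB.smul_eq_iff γ p).mp (hp γ)
  have hexp : IsExp M (fn p) (coeffMap O.subtype (ser p 1)) :=
    (BB.isExp p 1).congr fun τ => by rw [one_smul]
  obtain ⟨K, hK⟩ := hexp.exists_isBoundedAtImInfty hN
  obtain ⟨P, hP⟩ := exists_poly_of_invariant _ (BB.mdiff p) hinv K hK
  have h3 : IsExp M (fn p) (evP ℂ (JC M) P) := by
    have h4 := (isExp_jF_level M).aeval P
    have h5 : (fun τ => P.eval (jF τ)) = fn p := by
      funext τ
      exact (hP τ).symm
    rwa [h5] at h4
  have h6 : evP ℂ (JC M) P = coeffMap O.subtype (ser p 1) := h3.unique hN hexp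
  have hcoeff : ∀ a, P.coeff a ∈ O := by
    refine coeff_mem_of_evP_qExpand_jqModC O M P fun m => ?_
    have : evP ℂ (qExpand ℂ M (jqModC ℂ)) P = coeffMap O.subtype (ser p 1) := h6
    rw [this, coeffMap_coeff]
    exact ((ser p 1).coeff m).2
  obtain ⟨P₀, hP₀⟩ : ∃ P₀ : O[X], P₀.map O.subtype = P := by
    have : P ∈ Polynomial.lifts O.subtype := by
      rw [Polynomial.lifts_iff_coeff_lifts]
      intro n
      exact ⟨⟨_, hcoeff n⟩, rfl⟩
    exact (Polynomial.mem_lifts P).mp this
  refine ⟨P₀, BB.ext (funext fun τ => ?_)⟩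
  rw [Qep0_fn_aeval, hP₀, hP τ]

/-- an invariant polynomial over `BB M O` comes from `O[j][Y]`. -/
theorem exists_map_evP_of_invariant (Q : (BB M O)[X])
    (hQ : ∀ g : SL(2, ℤ), Q.map (MulSemiringAction.toRingHom SL(2, ℤ) (BB M O) g) = Q) :
    ∃ Q₀ : O[X][X], Q₀.map (evP O (jBB M O)) = Q := by
  have : Q ∈ Polynomial.lifts (evP O (jBB M O)) := by
    rw [Polynomial.lifts_iff_coeff_lifts]
    intro n
    obtain ⟨P, hP⟩ := exists_evP_of_invariant (Q.coeff n) (fun g => by
      have := congrArg (fun R : (BB M O)[X] => R.coeff n) (hQ g)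
      simpa [coeff_map] using this)
    exact ⟨P, hP.symm⟩
  exact (Polynomial.mem_lifts Q).mp this

end

end Fermat.Agent.G1.IG
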