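import Fermat.Agent.G1.IG.V1
import Fermat.Agent.G1.IG.PolyJ
import Fermat.Agent.G1.IG.Inv
import Fermat.Agent.G1.IG.Model
import Fermat.Agent.G1.IG.Inputs
import Fermat.Agent.G1.D.Close

/-!
# G1-IG: final wiring: Igusa's theorem for `Γ₁(N)` ⇒ `Model1 N ℓ` ⇒ `G1.D.VertIn` ⇒ `G1.E.ModelExists`
-/

set_option autoImplicit false

open UpperHalfPlane CongruenceSubgroup ModularCurve Polynomial
open scoped MatrixGroups Manifold

namespace Fermat.Agent.G1.IG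

open Fermat.Agent.S28 Fermat.Agent.G1

noncomputable section

/-- the good valuation ring of `ℂ` above `ℓ`, with the surjectivity of the residue map. -/
theorem exists_good_subring_surj (ℓ : ℕ) [Fact ℓ.Prime] (N : ℕ) [NeZero N] (hℓN : ¬ ℓ ∣ N) :
    ∃ (O : Subring ℂ) (κ : Type) (_ : Field κ) (_ : CharP κ ℓ) (res : O →+* κ),
      Function.Surjective res ∧
      ((N : ℂ))⁻¹ ∈ O ∧ (∀ ζ : ℂ, ζ ^ N = 1 → ζ ∈ O) ∧
      (∀ x : ℚ, (x : ℂ) ∈ O ↔ x ∈ GaloisRep.ratLocalizedAt ℓ) := by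
  obtain ⟨O, hO⟩ := exists_valuationSubring_inv_not_mem ℓ
  exact ⟨O.toSubring, IsLocalRing.ResidueField O, inferInstance, charP_residueField O hO,
    IsLocalRing.residue O, IsLocalRing.residue_surjective (R := O), natCast_inv_mem_of_not_dvd O hO N hℓN,
    fun ζ hζ => mem_of_pow_eq_one O N ζ hζ,
    fun x => ⟨mem_Rl_of_ratCast_mem O hO x, ratCast_mem_of_mem_Rl O hO x⟩⟩

theorem invPoly (M : ℕ) [NeZero M] (O : Subring ℂ) : InvPoly M O :=
  fun p hp => exists_evP_of_invariant p hp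

/-- the series whose interpolation is needed. -/
def gensS (M : ℕ) : Set (LaurentSeries ℤ) :=
  {s | (∃ (d : ℕ) (_ : NeZero d), d ∣ M ∧ s = qExpand ℤ d (jqModC ℤ)) ∨
    ∃ (d : ℕ) (_ : NeZero d) (b : ZMod M), d ∣ M ∧ b ≠ 0 ∧ s = uB ℤ M d b}

theorem coreSpec_of_coreOut {M : ℕ} [NeZero M] {O : Subring ℂ} {κ : Type*} [Field κ]
    {res : O →+* κ} {W : O[X][X]} (h : CoreOut M O res W) :
    CoreSpec M (Nat.card (A.Cosets1 M)) (V1Z M) (gensS M) O res := by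
  refine ⟨W, h.monic, h.deg, h.root, h.indep, h.simple, ?_⟩
  rintro s (⟨d, _, hd, rfl⟩ | ⟨d, _, b, hd, hb, rfl⟩)
  · exact h.lagJ d hd
  · exact h.lagU d b hd hb

/-- **Igusa's theorem for `Γ₁(N)`**, from (INV). -/
theorem exists_model1_of_inv
    (hINV : ∀ (M : ℕ) [NeZero M] (O : Subring ℂ), ((M : ℂ))⁻¹ ∈ O →
      (∀ ζ : ℂ, ζ ^ M = 1 → ζ ∈ O) → ∀ (κ : Type) [Field κ] (res : O →+* κ), INV M O res)
    (N : ℕ) [NeZero N] (ℓ : ℕ) [Fact ℓ.Prime] (hℓN : ¬ ℓ ∣ N) : Model1 N ℓ := by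
  rcases Nat.lt_or_ge N 2 with h1 | h2
  · have hN : N = 1 := by
      have := Nat.pos_of_ne_zero (NeZero.ne N)
      omega
    subst hN
    exact model1_one ℓ
  obtain ⟨O, κ, _, _, res, hres, hN, hζ, hOQ⟩ := exists_good_subring_surj ℓ N hℓN
  obtain ⟨WO, hWO⟩ := exists_coreOut (res := res) h2 hN hζ hres (hINV N O hN hζ κ res)
    (invPoly N O)
  have hsurj : Function.Surjective (⊤ : Subring ℂ).subtype := fun z => ⟨⟨z, Subring.mem_top z⟩, rfl⟩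
  obtain ⟨WT, hWT⟩ := exists_coreOut (res := (⊤ : Subring ℂ).subtype) h2 (Subring.mem_top _)
    (fun _ _ => Subring.mem_top _) hsurj
    (hINV N ⊤ (Subring.mem_top _) (fun _ _ => Subring.mem_top _) ℂ _) (invPoly N ⊤)
  exact model1_of_coreSpec N ℓ _ (V1Z N) (gensS N)
    (fun d _ hd => Or.inl ⟨d, ‹_›, hd, rfl⟩) (fun d _ b hd hb => Or.inr ⟨d, ‹_›, b, hd, hb, rfl⟩)
    _ (coreSpec_of_coreOut hWT) O res hOQ (coreSpec_of_coreOut hWO)

theorem modelExists_of_inv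
    (hINV : ∀ (M : ℕ) [NeZero M] (O : Subring ℂ), ((M : ℂ))⁻¹ ∈ O →
      (∀ ζ : ℂ, ζ ^ M = 1 → ζ ∈ O) → ∀ (κ : Type) [Field κ] (res : O →+* κ), INV M O res) :
    G1.E.ModelExists :=
  D.modelExists_of_vert (vertIn_of_model fun N _ ℓ _ h => exists_model1_of_inv hINV N ℓ h)

/-- **Igusa's theorem for `Γ₁(N)`.** -/
theorem exists_model1 (N : ℕ) [NeZero N] (ℓ : ℕ) [Fact ℓ.Prime] (hℓN : ¬ ℓ ∣ N) : Model1 N ℓ :=
  exists_model1_of_inv (fun _ _ _ hM hζ _ _ res => inv hM hζ res) N ℓ hℓN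

theorem vertIn : D.VertIn := vertIn_of_model fun N _ ℓ _ h => exists_model1 N ℓ h

/-- **The smooth model of `X₁(N)` over `ℤ[1/N]`.** -/
theorem modelExists : G1.E.ModelExists := D.modelExists_of_vert vertIn

end

end Fermat.Agent.G1.IG
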