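import Fermat.Agent.G1.IG.V1
import Fermat.Agent.G1.IG.Inv
import Fermat.Agent.G1.IG.PolyJ
import Fermat.Agent.G1.IG.Model

set_option autoImplicit false

open UpperHalfPlane CongruenceSubgroup ModularCurve Polynomial
open scoped MatrixGroups Manifold

namespace Fermat.Agent.G1.IG.Main4

open Fermat.Agent.S28 Fermat.Agent.G1.A Fermat.Agent.G1 Fermat.Agent.G1.IG

noncomputable section

/-- the generators. -/
def genSet (N : ℕ) : Set (LaurentSeries ℤ) :=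
  {s | (∃ (d : ℕ) (_ : NeZero d), d ∣ N ∧ s = qExpand ℤ d (jqModC ℤ)) ∨
    ∃ (d : ℕ) (_ : NeZero d) (b : ZMod N), d ∣ N ∧ b ≠ 0 ∧ s = uB ℤ N d b}

theorem coreSpec_of (N : ℕ) [NeZero N] (hN2 : 2 ≤ N) (O : Subring ℂ) (hM : ((N : ℂ))⁻¹ ∈ O)
    (hζ : ∀ ζ : ℂ, ζ ^ N = 1 → ζ ∈ O) {κ : Type*} [Field κ] (res : O →+* κ)
    (hres : Function.Surjective res) :
    CoreSpec N (Nat.card (Cosets1 N)) (V1Z N) (genSet N) O res := by
  obtain ⟨W, hW⟩ := exists_coreOut hN2 hM hζ hres (inv hM hζ res)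
    (fun p hp => exists_evP_of_invariant p hp)
  refine ⟨W, hW.monic, hW.deg, hW.root, hW.indep, hW.simple, ?_⟩
  rintro s (⟨d, hd0, hd, rfl⟩ | ⟨d, hd0, b, hd, hb, rfl⟩)
  · exact hW.lagJ d hd
  · exact hW.lagU d b hd hb

/-- **Igusa's theorem for `Γ₁(N)`.** -/
theorem exists_model1 (N : ℕ) [NeZero N] (ℓ : ℕ) [Fact ℓ.Prime] (hℓN : ¬ ℓ ∣ N) : Model1 N ℓ := by
  by_cases h1 : N = 1
  · subst h1
    exact model1_one ℓ
  have hN2 : 2 ≤ N := by
    have := NeZero.ne N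
    omega
  obtain ⟨O, hO⟩ := exists_valuationSubring_inv_not_mem ℓ
  have : CharP (IsLocalRing.ResidueField O) ℓ := charP_residueField O hO
  refine model1_of_coreSpec N ℓ (Nat.card (Cosets1 N)) (V1Z N) (genSet N)
    (fun d _ hd => Or.inl ⟨d, ‹_›, hd, rfl⟩) (fun d _ b hd hb => Or.inr ⟨d, ‹_›, b, hd, hb, rfl⟩)
    (⊤ : Subring ℂ).subtype
    (coreSpec_of N hN2 ⊤ (Subring.mem_top _) (fun _ _ => Subring.mem_top _) _
      (fun x => ⟨⟨x, Subring.mem_top _⟩, rfl⟩))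
    O.toSubring (κ := IsLocalRing.ResidueField O) (IsLocalRing.residue O)
    (fun x => ⟨mem_Rl_of_ratCast_mem O hO x, ratCast_mem_of_mem_Rl O hO x⟩)
    (coreSpec_of N hN2 O.toSubring (natCast_inv_mem_of_not_dvd O hO N hℓN)
      (fun ζ hζ => mem_of_pow_eq_one O N ζ hζ) (IsLocalRing.residue O)
      (IsLocalRing.residue_surjective (R := O)))

end

end Fermat.Agent.G1.IG.Main4
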