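import Fermat.Agent.G1.IG.Ring

/-!
# G1-IG (T): the kernel of the reduced expansion at `∞` is stable under `T`

The expansion of `f ∘ T⁻¹` is the expansion of `f` with `t ↦ ζ⁻¹ t`.
-/

set_option autoImplicit false

open UpperHalfPlane CongruenceSubgroup ModularCurve
open scoped MatrixGroups Manifold Real

namespace Fermat.Agent.G1.IG

open Fermat.Agent.S28

noncomputable section

theorem TInv_tParam (M : ℕ) [NeZero M] (τ : ℍ) :
    tParam M ((ModularGroup.T)⁻¹ • τ) = (rootU (-1) M : ℂ) * tParam M τ := by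
  have hM : (M : ℂ) ≠ 0 := Nat.cast_ne_zero.mpr (NeZero.ne M)
  have h1 : (ModularGroup.T)⁻¹ • τ = ((-1 : ℤ) : ℝ) +ᵥ τ := by
    rw [← modular_T_zpow_smul, zpow_neg_one]
  rw [h1, tParam, tParam, coe_vadd, Function.Periodic.qParam, Function.Periodic.qParam, rootU,
    Units.val_mk0, ← Complex.exp_add]
  congr 1
  push_cast
  field_simp

theorem TInv_isExp {M : ℕ} [NeZero M] {h : ℍ → ℂ} {f : LaurentSeries ℂ} (H : IsExp M h f) :
    IsExp M (fun τ => h ((ModularGroup.T)⁻¹ • τ)) (twistFun (rootU (-1) M) f) := by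
  intro τ
  have := H ((ModularGroup.T)⁻¹ • τ)
  convert this using 2 with k
  rw [TInv_tParam, mul_zpow]
  show ((rootU (-1) M ^ k : ℂˣ) : ℂ) * f.coeff k * _ = _
  push_cast
  ring

theorem TInv_rootU_pow (M : ℕ) [NeZero M] : (rootU (-1) M : ℂ) ^ M = 1 := by
  have hM : (M : ℂ) ≠ 0 := Nat.cast_ne_zero.mpr (NeZero.ne M)
  rw [rootU, Units.val_mk0, ← Complex.exp_nat_mul]
  have : (M : ℂ) * (2 * π * Complex.I * ((-1 : ℤ) : ℂ) / M) = ((-1 : ℤ) : ℂ) * (2 * π * Complex.I) := by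
    field_simp
  rw [this]
  exact Complex.exp_int_mul_two_pi_mul_I (-1)

/-- **(T)**. -/
theorem e_T_smul {M : ℕ} [NeZero M] {O : Subring ℂ} (hζ : ∀ ζ : ℂ, ζ ^ M = 1 → ζ ∈ O)
    {κ : Type*} [CommRing κ] (res : O →+* κ) (p : BB M O) (h : e res 1 p = 0) :
    e res 1 (ModularGroup.T • p) = 0 := by
  rw [e_smul, mul_one, e_apply]
  have h1 : IsExp M (fun τ => fn p ((ModularGroup.T)⁻¹ • τ))
      (twistFun (rootU (-1) M) (coeffMap O.subtype (ser p 1))) := by
    refine TInv_isExp ((BB.isExp p 1).congr fun τ => ?_)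
    rw [one_smul]
  have h2 := BB.coeffMap_ser p (ModularGroup.T)⁻¹ h1
  ext k
  rw [coeffMap_coeff, HahnSeries.coeff_zero]
  have hc : (((rootU (-1) M) ^ k : ℂˣ) : ℂ) ∈ O := by
    apply hζ
    rw [Units.val_zpow_eq_zpow_val, ← zpow_natCast, ← zpow_mul, mul_comm, zpow_mul, zpow_natCast,
      TInv_rootU_pow, one_zpow]
  have h3 : (ser p (ModularGroup.T)⁻¹).coeff k = ⟨_, hc⟩ * (ser p 1).coeff k := by
    apply Subtype.ext
    have h4 := congrArg (fun F : LaurentSeries ℂ => F.coeff k) h2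
    simp only [coeffMap_coeff] at h4
    exact h4
  have h5 : res ((ser p 1).coeff k) = 0 := by
    have h6 := congrArg (fun F : LaurentSeries κ => F.coeff k) h
    simpa only [e_apply, coeffMap_coeff, HahnSeries.coeff_zero] using h6
  rw [h3, map_mul, h5, mul_zero]

end

end Fermat.Agent.G1.IG
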