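import Fermat.Agent.G1.IG.Core
import Fermat.Agent.G1.AN.Main

/-!
# G1-IG, part (iv), file 3: the primitive element `V₁ = V₀^(M+1) u₁` of the function field of `X₁(M)`
-/

set_option autoImplicit false

open UpperHalfPlane CongruenceSubgroup ModularCurve Polynomial
open scoped MatrixGroups Manifold

namespace Fermat.Agent.G1.IG

open Fermat.Agent.S28 Fermat.Agent.G1.A

noncomputable section

variable {M : ℕ} [NeZero M] {O : Subring ℂ}

/-! ### existence of the elements of `BB M O` -/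

theorem exists_fn_vF (hM : ((M : ℂ))⁻¹ ∈ O) (hζ : ∀ ζ : ℂ, ζ ^ M = 1 → ζ ∈ O) :
    ∃ v₀ : BB M O, fn v₀ = vF M := by
  refine ⟨BB.ofFun (vF M) (mdiff_vF M)
    (fun γ hγ τ => vF_smul_of_mem_Gamma0 M γ (Gamma0_mem.2 (Gamma_mem.1 hγ).2.2.1) τ) (fun γ => ?_), rfl⟩
  by_cases hγ : γ ∈ Gamma0 M
  · refine ⟨iotaC M (VZ M),
      (isExp_vF M).congr (fun τ => (vF_smul_of_mem_Gamma0 M γ hγ τ).symm), fun m => ?_⟩
    have h : iotaC M (VZ M) = coeffMap O.subtype (iotaN O M (VZ M)) :=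
      (coeffMap_iotaN O.subtype M (VZ M)).symm
    rw [h, coeffMap_coeff]
    exact ((iotaN O M (VZ M)).coeff m).2
  · obtain ⟨f, hf, h⟩ := exists_isExp_vF_smul M γ
    exact ⟨f, hf, ((h hγ).2 O hM hζ).1⟩

theorem K9_Gamma_le_Gpm (M : ℕ) : Gamma M ≤ Gpm M := fun γ hγ => by
  refine Gamma1_le_Gpm M ?_
  rw [Gamma_mem] at hγ
  rw [Gamma1_mem]
  exact ⟨hγ.1, hγ.2.2.2, hγ.2.2.1⟩

theorem exists_fn_genF (hM : ((M : ℂ))⁻¹ ∈ O) (hζ : ∀ ζ : ℂ, ζ ^ M = 1 → ζ ∈ O) (b : ℤ)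
    (hb : ¬ (M : ℤ) ∣ b) (d : ℕ) [NeZero d] (hd : d ∣ M) : ∃ u : BB M O, fn u = genF M b d := by
  refine ⟨BB.ofFun (genF M b d) (mdiff_genF M b d)
    (fun γ hγ τ => genF_smul_of_mem_Gpm M b d hd γ (K9_Gamma_le_Gpm M hγ) τ) (fun g => ?_), rfl⟩
  obtain ⟨F, hF, hO⟩ := AN.exists_isExp_genF_smul_int M b hb d hd g
  exact ⟨F, hF, hO O hM hζ⟩

theorem K10_Gamma_le_Gamma0 (M : ℕ) : Gamma M ≤ Gamma0 M := fun γ hγ => by
  rw [Gamma_mem] at hγ
  rw [Gamma0_mem]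
  exact hγ.2.2.1

theorem K10_coeff_jqModC_mem (O : Subring ℂ) (k : ℤ) : (jqModC ℂ).coeff k ∈ O := by
  rw [← S28.coeffMap_jqModC (Int.castRingHom ℂ), coeffMap_coeff]
  exact intCast_mem O _

theorem exists_fn_jdF (hM : ((M : ℂ))⁻¹ ∈ O) (hζ : ∀ ζ : ℂ, ζ ^ M = 1 → ζ ∈ O) (d : ℕ) [NeZero d]
    (hd : d ∣ M) : ∃ s : BB M O, fn s = jdF d := by
  refine ⟨BB.ofFun (jdF d) (mdiff_jdF d)
    (fun γ hγ τ => jdF_smul_of_mem_Gamma0 M d hd γ (K10_Gamma_le_Gamma0 M hγ) τ) (fun γ => ?_), rfl⟩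
  have hN : 0 < M := Nat.pos_of_ne_zero (NeZero.ne M)
  have hd' : d ∈ M.divisors := Nat.mem_divisors.mpr ⟨hd, NeZero.ne M⟩
  obtain ⟨b, hb⟩ := exists_affH_smul γ d (Nat.pos_of_mem_divisors hd')
  obtain ⟨hg0, hδ0, hδN, hm0, hm, -⟩ := gcd_facts hN hd' (γ 1 0)
  haveI : NeZero (Int.gcd d (γ 1 0) * (M / (d / Int.gcd d (γ 1 0)))) := ⟨hm0⟩
  refine ⟨_, (isExp_jF.comp_affH b hN hg0 hδ0 hm).congr fun τ => ((hb τ).2).symm, ?_⟩
  exact coeff_substL_mem O b hδ0 hδN hζ _ (K10_coeff_jqModC_mem O)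

/-! ### expansions at `∞` and invariance -/

theorem ser_of_fn_vF {v₀ : BB M O} (h : fn v₀ = vF M) : ser v₀ 1 = iotaN O M (VZ M) := by
  apply coeffMap_subtype_injective
  rw [coeffMap_iotaN]
  apply BB.coeffMap_ser
  exact (isExp_vF M).congr (fun τ => by rw [one_smul, h])

theorem K9_isExp_level (N : ℕ) [NeZero N] {f : ℍ → ℂ} {F : LaurentSeries ℂ} (hf : IsExp 1 f F) :
    IsExp N f (qExpand ℂ N F) := by
  have h := hf.comp_affH (N := N) (a := 1) (δ := 1) (m := N) 0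
    (Nat.pos_of_ne_zero (NeZero.ne N)) one_pos one_pos (by ring)
  rw [sym_rootU_zero_one, substL_one] at h
  simpa [sym_affH_one] using h

theorem ser_of_fn_genF {u : BB M O} {b : ℤ} (hb : ¬ (M : ℤ) ∣ b) {d : ℕ} [NeZero d]
    (h : fn u = genF M b d) : ser u 1 = iotaN O M (uB ℤ M d (b : ZMod M)) := by
  apply coeffMap_subtype_injective
  rw [coeffMap_iotaN]
  refine BB.coeffMap_ser u 1 ?_
  have h1 := K9_isExp_level M (isExp_genF M b hb d)
  have h2 : iotaN ℂ M (uB ℤ M d (b : ZMod M)) = qExpand ℂ M (uB ℂ M d (b : ZMod M)) := by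
    show qExpand ℂ M (coeffMap (Int.castRingHom ℂ) (uB ℤ M d (b : ZMod M))) = _
    rw [coeffMap_uB]
  rw [h2]
  exact h1.congr fun τ => by rw [one_smul, h]

theorem ser_of_fn_jdF {s : BB M O} {d : ℕ} [NeZero d] (hd : d ∣ M) (h : fn s = jdF d) :
    ser s 1 = iotaN O M (qExpand ℤ d (jqModC ℤ)) := by
  apply coeffMap_subtype_injective
  rw [coeffMap_iotaN]
  refine BB.coeffMap_ser s 1 ?_
  have h2 : iotaN ℂ M (qExpand ℤ d (jqModC ℤ)) = qExpand ℂ M (qExpand ℂ d (jqModC ℂ)) := by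
    show qExpand ℂ M (coeffMap (Int.castRingHom ℂ) (qExpand ℤ d (jqModC ℤ))) = _
    rw [coeffMap_qExpand, S28.coeffMap_jqModC]
  rw [h2]
  exact (isExp_jdF M d hd).congr fun τ => by rw [one_smul, h]

theorem smul_of_fn_vF {v₀ : BB M O} (h : fn v₀ = vF M) (β : SL(2, ℤ)) (hβ : β ∈ Gamma0 M) :
    β • v₀ = v₀ := by
  refine (BB.smul_eq_iff β v₀).2 (fun τ => ?_)
  rw [h]
  exact vF_smul_of_mem_Gamma0 M β hβ τ

theorem smul_of_fn_genF {u : BB M O} {b : ℤ} {d : ℕ} [NeZero d] (hd : d ∣ M)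
    (h : fn u = genF M b d) (g : SL(2, ℤ)) (hg : g ∈ Gpm M) : g • u = u := by
  rw [BB.smul_eq_iff]
  intro τ
  rw [h]
  exact genF_smul_of_mem_Gpm M b d hd g hg τ

theorem smul_of_fn_jdF {s : BB M O} {d : ℕ} [NeZero d] (hd : d ∣ M) (h : fn s = jdF d)
    (g : SL(2, ℤ)) (hg : g ∈ Gpm M) : g • s = s := by
  rw [BB.smul_eq_iff]
  intro τ
  rw [h]
  exact jdF_smul_of_mem_Gamma0 M d hd g (Gpm_le_Gamma0 M hg) τ

/-! ### reductions -/

variable {κ : Type*} [Field κ] (res : O →+* κ)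

theorem e_ne_zero_of_fn_vF (hM : ((M : ℂ))⁻¹ ∈ O) (hζ : ∀ ζ : ℂ, ζ ^ M = 1 → ζ ∈ O)
    {v₀ : BB M O} (h : fn v₀ = vF M) (γ : SL(2, ℤ)) : e res γ v₀ ≠ 0 := by
  by_cases hγ : γ ∈ Gamma0 M
  · rw [e_eq_one_smul, smul_of_fn_vF h γ⁻¹ (inv_mem hγ), e_apply, ser_of_fn_vF h, coeffMap_iotaN]
    have hu : IsUnit (VZ M) := by
      unfold VZ
      exact Units.isUnit _
    exact (hu.map (iotaN κ M)).ne_zero
  · obtain ⟨f, hf, h'⟩ := exists_isExp_vF_smul M γ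
    have h1 : coeffMap O.subtype (ser v₀ γ) = f := BB.coeffMap_ser v₀ γ (by rw [h]; exact hf)
    obtain ⟨m, hm0, hm⟩ := ((h' hγ).2 O hM hζ).2
    have h2 : (((ser v₀ γ).coeff m : O) : ℂ) = f.coeff m := by
      rw [← h1, coeffMap_coeff]
      rfl
    have h3 : (ser v₀ γ).coeff m * ⟨(f.coeff m)⁻¹, hm⟩ = 1 := by
      apply Subtype.ext
      show (((ser v₀ γ).coeff m : O) : ℂ) * (f.coeff m)⁻¹ = 1
      rw [h2, mul_inv_cancel₀ hm0]
    intro h0
    have h4 : res ((ser v₀ γ).coeff m) = 0 := by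
      have := congrArg (fun x => x.coeff m) h0
      simpa [e_apply] using this
    have h5 := congrArg res h3
    rw [map_mul, h4, zero_mul, map_one] at h5
    exact zero_ne_one h5

theorem e_coeff_of_fn_vF {v₀ : BB M O} (h : fn v₀ = vF M) (γ : SL(2, ℤ)) (hγ : γ ∉ Gamma0 M)
    (m : ℤ) (hm : m ≤ 0) : (e res γ v₀).coeff m = 0 := by
  obtain ⟨f, hf, h'⟩ := exists_isExp_vF_smul M γ
  have h1 : coeffMap O.subtype (ser v₀ γ) = f := BB.coeffMap_ser v₀ γ (by rw [h]; exact hf)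
  have h2 : (ser v₀ γ).coeff m = 0 := by
    apply Subtype.ext
    show O.subtype ((ser v₀ γ).coeff m) = 0
    rw [← coeffMap_coeff, h1]
    exact (h' hγ).1 m hm
  rw [e_apply, coeffMap_coeff, h2, map_zero]

theorem K11_uB_coeff_zero (R : Type*) [CommRing R] (M : ℕ) (a : ZMod M) :
    (uB R M 1 a).coeff 0 =
      (if (1 : ZMod M) = a then (1 : R) else 0) + (if (1 : ZMod M) = -a then 1 else 0) := by
  have h0 : (0 : ℤ) = ((1 : ℕ) : ℤ) + (-1) := by norm_num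
  rw [uB, qExpand_one_apply, invDelta, eBL, mul_left_comm, ← map_mul, h0,
    HahnSeries.coeff_single_mul_add, one_mul, HahnSeries.ofPowerSeries_apply_coeff,
    PowerSeries.coeff_mul, Finset.Nat.antidiagonal_succ]
  simp [coeff_eB, constantCoeff_dedekindEtaUnitInv]

theorem K11_isExp_level (N : ℕ) [NeZero N] {f : ℍ → ℂ} {F : LaurentSeries ℂ} (hf : IsExp 1 f F) :
    IsExp N f (qExpand ℂ N F) := by
  have h := hf.comp_affH (N := N) (a := 1) (δ := 1) (m := N) 0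
    (Nat.pos_of_ne_zero (NeZero.ne N)) one_pos one_pos (by ring)
  rw [sym_rootU_zero_one, substL_one] at h
  simpa [sym_affH_one] using h

theorem K11_ser {u : BB M O} {b : ℤ} (hb : ¬ (M : ℤ) ∣ b) (γ : SL(2, ℤ))
    (h : ∀ τ, fn u (γ • τ) = genF M b 1 τ) : ser u γ = iotaN O M (uB ℤ M 1 (b : ZMod M)) := by
  apply coeffMap_subtype_injective
  rw [coeffMap_iotaN]
  refine BB.coeffMap_ser u γ ?_
  have h1 := K11_isExp_level M (isExp_genF M b hb 1)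
  have h2 : iotaN ℂ M (uB ℤ M 1 (b : ZMod M)) = qExpand ℂ M (uB ℂ M 1 (b : ZMod M)) := by
    show qExpand ℂ M (coeffMap (Int.castRingHom ℂ) (uB ℤ M 1 (b : ZMod M))) = _
    rw [coeffMap_uB]
  rw [h2]
  exact h1.congr fun τ => (h τ).symm

theorem K11_e_coeff_zero {u : BB M O} {b : ℤ} (hb : ¬ (M : ℤ) ∣ b) (γ : SL(2, ℤ))
    (h : ∀ τ, fn u (γ • τ) = genF M b 1 τ) :
    (e res γ u).coeff 0 = (if (1 : ZMod M) = (b : ZMod M) then (1 : κ) else 0) +
      (if (1 : ZMod M) = -(b : ZMod M) then 1 else 0) := by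
  rw [e_apply, K11_ser hb γ h, coeffMap_iotaN]
  show (qExpand κ M (coeffMap (Int.castRingHom κ) (uB ℤ M 1 (b : ZMod M)))).coeff 0 = _
  have h0 : (0 : ℤ) = (M : ℤ) * 0 := by ring
  rw [coeffMap_uB, h0, qExpand_coeff_mul, K11_uB_coeff_zero]

theorem K11_natCast_ne_zero (res' : O →+* κ) (hM : ((M : ℂ))⁻¹ ∈ O) : (M : κ) ≠ 0 := by
  intro h0
  have hM0 : (M : ℂ) ≠ 0 := Nat.cast_ne_zero.mpr (NeZero.ne M)
  have h1 : (M : O) * ⟨_, hM⟩ = 1 := Subtype.ext (by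
    show ((M : O) : ℂ) * ((M : ℂ))⁻¹ = 1
    rw [show ((M : O) : ℂ) = (M : ℂ) from by simp]
    exact mul_inv_cancel₀ hM0)
  have h2 := congrArg res' h1
  rw [map_mul, map_natCast, h0, zero_mul, map_one] at h2
  exact zero_ne_one h2

theorem K11_not_dvd_one (hM2 : 2 ≤ M) : ¬ (M : ℤ) ∣ 1 := by
  intro hdvd
  have := Int.le_of_dvd one_pos hdvd
  omega

theorem e_coeff_zero_of_fn_genF (hM2 : 2 ≤ M) (hM : ((M : ℂ))⁻¹ ∈ O) {u : BB M O}
    (h : fn u = genF M 1 1) : (e res 1 u).coeff 0 ≠ 0 := by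
  rw [K11_e_coeff_zero res (K11_not_dvd_one hM2) 1 (fun τ => by rw [one_smul, h]), Int.cast_one,
    if_pos rfl]
  split_ifs with h1
  · have h2 : ((2 : ℕ) : ZMod M) = 0 := by
      push_cast
      linear_combination h1
    rw [ZMod.natCast_eq_zero_iff] at h2
    have h3 : M = 2 := le_antisymm (Nat.le_of_dvd two_pos h2) hM2
    have h4 := K11_natCast_ne_zero res hM
    rw [h3] at h4
    intro h5
    apply h4
    push_cast
    linear_combination h5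
  · rw [add_zero]
    exact one_ne_zero

theorem K12_deltaInvL_coeff (m : ℤ) (hm : m < -1) : (deltaInvL ℂ).coeff m = 0 := by
  unfold deltaInvL
  rw [show m = (m + 1) + (-1) by ring, HahnSeries.coeff_single_mul_add, one_mul]
  exact ofPowerSeries_coeff_of_neg _ (by omega)

theorem K12_qExpand_deltaInvL_coeff (M : ℕ) [NeZero M] (m : ℤ) (hm : m < -(M : ℤ)) :
    (qExpand ℂ M (deltaInvL ℂ)).coeff m = 0 := by
  by_cases hd : (M : ℤ) ∣ m
  · obtain ⟨k, rfl⟩ := hd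
    rw [qExpand_coeff_mul]
    apply K12_deltaInvL_coeff
    have hM : (0 : ℤ) < M := by exact_mod_cast Nat.pos_of_ne_zero (NeZero.ne M)
    nlinarith
  · exact qExpand_coeff_of_not_dvd M _ hd

theorem e_coeff_of_fn_genF (hM2 : 2 ≤ M) {u : BB M O} (h : fn u = genF M 1 1) (γ : SL(2, ℤ))
    (m : ℤ) (hm : m < -(M : ℤ)) : (e res γ u).coeff m = 0 := by
  have h1 : ¬ (M : ℤ) ∣ 1 := by
    intro hd
    have := Int.le_of_dvd one_pos hd
    omega
  obtain ⟨F, hF, hF0, -⟩ := AN.exists_isExp_eisF_slash_int M 1 h1 γ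
  have hD : IsExp M (fun τ => (DeltaF τ)⁻¹) (qExpand ℂ M (deltaInvL ℂ)) :=
    GR.A.isExp_level M isExp_delta_inv
  have hP' : IsExp M (fun τ => fn u (γ • τ)) (F * qExpand ℂ M (deltaInvL ℂ)) :=
    (hF.mul hD).congr fun τ => by
      rw [h, Gen_genF_one_smul, div_eq_mul_inv]
      rfl
  have hs := BB.coeffMap_ser u γ hP'
  have hc : (F * qExpand ℂ M (deltaInvL ℂ)).coeff m = 0 := by
    rw [HahnSeries.coeff_mul]
    apply Finset.sum_eq_zero
    rintro ⟨i, j⟩ hij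
    rw [Finset.mem_antidiagonal] at hij
    obtain ⟨-, -, hij⟩ := hij
    simp only at hij ⊢
    by_cases hi : i < 0
    · rw [hF0 i hi, zero_mul]
    · rw [K12_qExpand_deltaInvL_coeff M j (by omega), mul_zero]
  have hz : (ser u γ).coeff m = 0 := by
    apply Subtype.ext
    have h2 := congrArg (fun x => x.coeff m) hs
    simp only [coeffMap_coeff] at h2
    rw [hc] at h2
    exact h2
  rw [e_apply, coeffMap_coeff, hz, map_zero]

theorem e_ne_of_fn_genF (hM2 : 2 ≤ M) (hM : ((M : ℂ))⁻¹ ∈ O) {u : BB M O}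
    (h : fn u = genF M 1 1) (γ : SL(2, ℤ)) (hγ : γ ∈ Gamma0 M) (hγ' : γ ∉ Gpm M) :
    e res 1 u ≠ e res γ u := by
  intro heq
  have hdet : γ 0 0 * γ 1 1 - γ 0 1 * γ 1 0 = 1 := by
    have := γ.det_coe
    rwa [Matrix.det_fin_two] at this
  have h10 : ((γ 1 0 : ℤ) : ZMod M) = 0 := (Gamma0_mem).mp hγ
  have hprod : ((γ 0 0 : ℤ) : ZMod M) * ((γ 1 1 : ℤ) : ZMod M) = 1 := by
    have := congrArg (fun z : ℤ => (z : ZMod M)) hdet
    simp only [Int.cast_sub, Int.cast_mul, Int.cast_one, h10, mul_zero, sub_zero] at this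
    exact this
  have : Fact (1 < M) := ⟨by omega⟩
  have ha : ¬ (M : ℤ) ∣ γ 0 0 := by
    intro hdvd
    rw [← ZMod.intCast_zmod_eq_zero_iff_dvd] at hdvd
    rw [hdvd, zero_mul] at hprod
    exact zero_ne_one hprod
  have h4 : ¬ ((1 : ZMod M) = ((γ 0 0 : ℤ) : ZMod M) ∨ (1 : ZMod M) = -((γ 0 0 : ℤ) : ZMod M)) := by
    intro h4
    apply hγ'
    rcases h4 with h4 | h4
    · refine Or.inl ((Gamma1_mem M γ).mpr ⟨h4.symm, ?_, h10⟩)
      rw [← h4, one_mul] at hprod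
      exact hprod
    · refine Or.inr ((Gamma1_mem M (-γ)).mpr ⟨?_, ?_, ?_⟩)
      · simp only [Matrix.SpecialLinearGroup.coe_neg, Matrix.neg_apply, Int.cast_neg]
        exact h4.symm
      · simp only [Matrix.SpecialLinearGroup.coe_neg, Matrix.neg_apply, Int.cast_neg]
        have h5 : ((γ 0 0 : ℤ) : ZMod M) = -1 := by rw [h4, neg_neg]
        rw [h5] at hprod
        linear_combination hprod
      · simp only [Matrix.SpecialLinearGroup.coe_neg, Matrix.neg_apply, Int.cast_neg, h10,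
          neg_zero]
  push Not at h4
  have h5 := K11_e_coeff_zero res ha γ (fun τ => by
    rw [h, genF_smul_of_mem_Gamma0 M 1 1 (one_dvd M) γ hγ τ, mul_one])
  rw [if_neg h4.1, if_neg h4.2, add_zero, ← heq] at h5
  exact e_coeff_zero_of_fn_genF res hM2 hM h h5

/-! ### the primitive element -/

/-- `V₁ = V₀^(M+1) e₁/Δ ∈ ℤ((q))`. -/
def V1Z (M : ℕ) : LaurentSeries ℤ := VZ M ^ (M + 1) * uB ℤ M 1 1

/-- The output of the core for one triple `(O, κ, res)`. -/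
structure CoreOut (M : ℕ) [NeZero M] (O : Subring ℂ) {κ : Type*} [Field κ] (res : O →+* κ)
    (W : O[X][X]) : Prop where
  monic : W.Monic
  deg : W.natDegree = Nat.card (Cosets1 M)
  root : W.eval₂ (evP O (JN O M)) (iotaN O M (V1Z M)) = 0
  indep : ∀ u : Fin (Nat.card (Cosets1 M)) → κ[X],
    ∑ i, evP κ (JN κ M) (u i) * iotaN κ M (V1Z M) ^ (i : ℕ) = 0 → u = 0
  simple : ((derivative W).map (Polynomial.mapRingHom res)).eval₂ (evP κ (JN κ M))
    (iotaN κ M (V1Z M)) ≠ 0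
  lagJ : ∀ (d : ℕ) [NeZero d], d ∣ M → ∃ G : O[X][X],
    G.eval₂ (evP O (JN O M)) (iotaN O M (V1Z M)) = iotaN O M (qExpand ℤ d (jqModC ℤ)) *
      (derivative W).eval₂ (evP O (JN O M)) (iotaN O M (V1Z M))
  lagU : ∀ (d : ℕ) [NeZero d] (b : ZMod M), d ∣ M → b ≠ 0 → ∃ G : O[X][X],
    G.eval₂ (evP O (JN O M)) (iotaN O M (V1Z M)) = iotaN O M (uB ℤ M d b) *
      (derivative W).eval₂ (evP O (JN O M)) (iotaN O M (V1Z M))

variable {res}

/-- **Export of part (iv), generic in `(O, κ, res)`.** -/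
theorem exists_coreOut (hM2 : 2 ≤ M) (hM : ((M : ℂ))⁻¹ ∈ O) (hζ : ∀ ζ : ℂ, ζ ^ M = 1 → ζ ∈ O)
    (hres : Function.Surjective res) (hINV : INV M O res) (hIP : InvPoly M O) :
    ∃ W : O[X][X], CoreOut M O res W := by
  classical
  have h1 : ¬ (M : ℤ) ∣ 1 := by
    intro h
    have := Int.le_of_dvd one_pos h
    omega
  obtain ⟨v₀, hv₀⟩ := exists_fn_vF (M := M) (O := O) hM hζ
  obtain ⟨u, hu⟩ := exists_fn_genF (M := M) (O := O) hM hζ 1 h1 1 (one_dvd M)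
  set v₁ : BB M O := v₀ ^ (M + 1) * u with hv₁
  have hv : ∀ h ∈ Gpm M, h • v₁ = v₁ := by
    intro h hh
    rw [hv₁, smul_mul', smul_pow', smul_of_fn_vF hv₀ h (Gpm_le_Gamma0 M hh),
      smul_of_fn_genF (one_dvd M) hu h hh]
  have hne : ∀ γ, e res γ v₀ ≠ 0 := e_ne_zero_of_fn_vF res hM hζ hv₀
  have hpos := e_coeff_of_fn_vF res hv₀
  have hord : (e res 1 v₀).order ≤ 0 :=
    order_le_zero_of_pos (H := Gamma0 M) hIP (smul_of_fn_vF hv₀) hne hpos
  have hsep : ∀ γ, γ ∉ Gpm M → e res 1 v₁ ≠ e res γ v₁ := fun γ hγ =>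
    sep_of (H := Gpm M) (H₀ := Gamma0 M) v₀ u (smul_of_fn_vF hv₀) (hne 1) hord hpos
      (e_coeff_zero_of_fn_genF res hM2 hM hu) (e_coeff_of_fn_genF res hM2 hu)
      (e_ne_of_fn_genF res hM2 hM hu) γ hγ
  have hser : ser v₁ 1 = iotaN O M (V1Z M) := by
    rw [hv₁, BB.ser_mul, ← serHom_apply, map_pow, serHom_apply, ser_of_fn_vF hv₀,
      ser_of_fn_genF h1 hu, V1Z, map_mul, map_pow, Int.cast_one]
  have he : e res 1 v₁ = iotaN κ M (V1Z M) := by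
    rw [e_apply, hser, S28.coeffMap_iotaN]
  obtain ⟨W, hW⟩ := exists_W (H := Gpm M) hIP hv
  refine ⟨W, ?_⟩
  refine
    { monic := core_monic hW
      deg := core_natDegree hW
      root := ?_
      indep := ?_
      simple := ?_
      lagJ := ?_
      lagU := ?_ }
  · rw [← hser]
    exact core_root hv hW
  · intro w hw
    rw [← he] at hw
    exact core_indep hres hINV hv hsep w hw
  · rw [← he]
    exact core_simple hINV hv hsep hW
  · intro d _ hd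
    obtain ⟨s, hs⟩ := exists_fn_jdF (M := M) (O := O) hM hζ d hd
    obtain ⟨G, hG⟩ := exists_G (H := Gpm M) hIP hv (smul_of_fn_jdF hd hs)
    refine ⟨G, ?_⟩
    rw [← hser, ← ser_of_fn_jdF hd hs]
    exact core_lagrange hv (smul_of_fn_jdF hd hs) hW hG
  · intro d _ b hd hb
    have hb' : ¬ (M : ℤ) ∣ ((b.val : ℕ) : ℤ) := by
      intro h
      apply hb
      have h2 := (ZMod.intCast_zmod_eq_zero_iff_dvd ((b.val : ℕ) : ℤ) M).2 h
      rw [Int.cast_natCast, ZMod.natCast_zmod_val] at h2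
      exact h2
    obtain ⟨s, hs⟩ := exists_fn_genF (M := M) (O := O) hM hζ ((b.val : ℕ) : ℤ) hb' d hd
    obtain ⟨G, hG⟩ := exists_G (H := Gpm M) hIP hv (smul_of_fn_genF hd hs)
    refine ⟨G, ?_⟩
    have hsb : ser s 1 = iotaN O M (uB ℤ M d b) := by
      rw [ser_of_fn_genF hb' hs, Int.cast_natCast, ZMod.natCast_zmod_val]
    rw [← hser, ← hsb]
    exact core_lagrange hv (smul_of_fn_genF hd hs) hW hG

end

end Fermat.Agent.G1.IG
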