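import Fermat.Agent.G1.D.Vert.Data

/-!
# G1-IG, last step: from the model `(V, W₁)` over `ℤ_(ℓ)` to the vertical data `G1.D.Vert.VData R L N`
over an arbitrary DVR `R` of residue characteristic `ℓ ∤ N`
(port of `GR.D.Vert.nonempty_vdata`; `Model1 N ℓ` is the conclusion of `GR.D.Vert.exists_model` with one
more interpolation clause for the generators `e_b(q)/Δ(q^d)` of `FF1`).
-/

set_option autoImplicit false
set_option linter.unusedSectionVars false

namespace Fermat.Agent.G1.IG

open ModularCurve Polynomial Fermat.Agent.S28 Fermat.Agent.GR.D.Vert Fermat.Agent.G1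

noncomputable section

/-- INTERFACE (Igusa's theorem for `Γ₁(N)`): the model over `ℤ_(ℓ)`. -/
def Model1 (N : ℕ) (ℓ : ℕ) [Fact ℓ.Prime] : Prop :=
  ∃ (V : LaurentSeries ℤ) (W₁ : (Rl ℓ)[X][X]),
    W₁.Monic ∧
    W₁.eval₂ (evP (Rl ℓ) (jqModC (Rl ℓ))) (coeffMap (Int.castRingHom (Rl ℓ)) V) = 0 ∧
    (∀ (d : ℕ) [NeZero d], d ∣ N → ∃ G₀ : ℚ[X][X],
      G₀.eval₂ (evP ℚ jq) (coeffMap (Int.castRingHom ℚ) V)
        = qExpand ℚ d jq *
          (derivative (W₁.map (Polynomial.mapRingHom (GaloisRep.ratLocalizedAt ℓ).subtype))).eval₂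
            (evP ℚ jq) (coeffMap (Int.castRingHom ℚ) V)) ∧
    (∀ (d : ℕ) [NeZero d] (b : ZMod N), d ∣ N → b ≠ 0 → ∃ G₀ : ℚ[X][X],
      G₀.eval₂ (evP ℚ jq) (coeffMap (Int.castRingHom ℚ) V)
        = uB ℚ N d b *
          (derivative (W₁.map (Polynomial.mapRingHom (GaloisRep.ratLocalizedAt ℓ).subtype))).eval₂
            (evP ℚ jq) (coeffMap (Int.castRingHom ℚ) V)) ∧
    (∀ u : Fin W₁.natDegree → (ZMod ℓ)[X],
      ∑ i, evP (ZMod ℓ) (jqModC (ZMod ℓ)) (u i) *
        coeffMap (Int.castRingHom (ZMod ℓ)) V ^ (i : ℕ) = 0 → u = 0) ∧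
    (derivative (W₁.map (Polynomial.mapRingHom (resid ℓ)))).eval₂
      (evP (ZMod ℓ) (jqModC (ZMod ℓ))) (coeffMap (Int.castRingHom (ZMod ℓ)) V) ≠ 0

variable {R : Type*} [CommRing R] [IsDomain R] [IsDiscreteValuationRing R]
variable {L : Type*} [Field L] [Algebra R L] [IsFractionRing R L]

theorem nonempty_vdata1_of_model (N : ℕ) (ℓ : ℕ) [Fact ℓ.Prime] (hM : Model1 N ℓ)
    [CharP (IsLocalRing.ResidueField R) ℓ] [CharZero L] : Nonempty (G1.D.Vert.VData R L N) := by
  obtain ⟨V, W₁, hm, hroot, hG, hGu, hind, hsimp⟩ := hM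
  let sQ : Rl ℓ →+* ℚ := (GaloisRep.ratLocalizedAt ℓ).subtype
  have hinj : Function.Injective (algebraMap R L) := IsFractionRing.injective R L
  let g : Rl ℓ →+* R := liftOfRange (algebraMap R L) hinj ((algebraMap ℚ L).comp sQ)
    (ratCast_mem_range ℓ)
  have hg : (algebraMap R L).comp g = (algebraMap ℚ L).comp sQ :=
    RingHom.ext fun x => apply_liftOfRange (algebraMap R L) hinj _ _ x
  let _ : Algebra (ZMod ℓ) (IsLocalRing.ResidueField R) := ZMod.algebra _ ℓ
  have hres : (IsLocalRing.residue R).comp g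
      = (algebraMap (ZMod ℓ) (IsLocalRing.ResidueField R)).comp (resid ℓ) := ringHom_Rl_ext' ℓ _ _
  set VR : LaurentSeries R := coeffMap (Int.castRingHom R) V with hVR
  set W : R[X][X] := W₁.map (Polynomial.mapRingHom g) with hW
  have hrootR : W.eval₂ (evP R (jqModC R)) VR = 0 := by
    have h := congrArg (coeffMap g) hroot
    rw [map_eval₂_evP g (coeffMap g) (coeffMap_algebraMap' g g fun _ => rfl),
      S28.coeffMap_jqModC, coeffMap_coeffMap,
      coeffMap_congr (RingHom.ext_int _ (Int.castRingHom R)), map_zero] at h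
    exact h
  have hredV : redL R VR = coeffMap (algebraMap (ZMod ℓ) (IsLocalRing.ResidueField R))
      (coeffMap (Int.castRingHom (ZMod ℓ)) V) := by
    rw [hVR, coeffMap_coeffMap, coeffMap_coeffMap]
    exact coeffMap_congr (RingHom.ext_int _ _) _
  have hsimple : redL R ((derivative W).eval₂ (evP R (jqModC R)) VR) ≠ 0 := by
    rw [map_eval₂_evP (IsLocalRing.residue R) (redL R)
      (coeffMap_algebraMap' (IsLocalRing.residue R) (IsLocalRing.residue R) fun _ => rfl),
      S28.coeffMap_jqModC, hW, Polynomial.derivative_map, map_mapRingHom_comp, hres,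
      ← map_mapRingHom_comp, hredV]
    intro h0
    apply hsimp
    apply coeffMap_injective (algebraMap (ZMod ℓ) (IsLocalRing.ResidueField R))
      (algebraMap (ZMod ℓ) (IsLocalRing.ResidueField R)).injective
    rw [map_eval₂_evP (algebraMap (ZMod ℓ) (IsLocalRing.ResidueField R))
      (coeffMap (algebraMap (ZMod ℓ) (IsLocalRing.ResidueField R)))
      (coeffMap_algebraMap' _ _ fun _ => rfl), S28.coeffMap_jqModC, map_zero,
      Polynomial.derivative_map]
    exact h0
  have hembV : embL R L VR = coeffMap (algebraMap ℚ L) (coeffMap (Int.castRingHom ℚ) V) := by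
    rw [hVR, coeffMap_coeffMap, coeffMap_coeffMap]
    exact coeffMap_congr (RingHom.ext_int _ _) _
  have hWL : W.map (Polynomial.mapRingHom (algebraMap R L))
      = (W₁.map (Polynomial.mapRingHom sQ)).map (Polynomial.mapRingHom (algebraMap ℚ L)) := by
    rw [hW, map_mapRingHom_comp, map_mapRingHom_comp, hg]
  have hemb : ∀ P : R[X][X], embL R L (P.eval₂ (evP R (jqModC R)) VR)
      = (P.map (Polynomial.mapRingHom (algebraMap R L))).eval₂ (evP L (jqModC L)) (embL R L VR) := by
    intro P
    rw [map_eval₂_evP (algebraMap R L) (embL R L)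
      (coeffMap_algebraMap' (algebraMap R L) (algebraMap R L) fun _ => rfl), S28.coeffMap_jqModC]
  refine ⟨{
    V := VR
    W := W
    n := W₁.natDegree
    hn := (hm.natDegree_map _).symm
    monic := hm.map _
    root := hrootR
    span := ?_
    indep := ?_
    simple := hsimple }⟩
  · intro y hy
    refine exists_repr_of_mem_adjoin' (R := R) (jqModC L) (embL R L VR)
      (evP_injective_of_pole' _ (order_jqModC_neg L))
      (W.map (Polynomial.mapRingHom (algebraMap R L))) ((hm.map _).map _) ?_ _ ?_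
      (divisorExpansionsC L N ∪ eisGens L N) ?_ y hy
    · rw [← hemb, hrootR, map_zero]
    · rw [(hm.map _).natDegree_map, hm.natDegree_map]
    · rintro s (⟨d, hd0, hd, rfl⟩ | ⟨d, hd0, b, hd, hb, rfl⟩)
      · obtain ⟨G₀, hG₀⟩ := hG d hd
        refine ⟨G₀.map (Polynomial.mapRingHom (algebraMap ℚ L)),
          derivative (W.map (Polynomial.mapRingHom (algebraMap R L))), ?_, ?_⟩
        · rw [Polynomial.derivative_map, ← hemb]
          intro h0
          apply hsimple
          rw [embL_injective R L (h0.trans (map_zero _).symm), map_zero]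
        · have h := congrArg (coeffMap (algebraMap ℚ L)) hG₀
          rw [map_mul, map_eval₂_evP (algebraMap ℚ L) (coeffMap (algebraMap ℚ L))
            (coeffMap_algebraMap' (algebraMap ℚ L) (algebraMap ℚ L) fun _ => rfl),
            map_eval₂_evP (algebraMap ℚ L) (coeffMap (algebraMap ℚ L))
            (coeffMap_algebraMap' (algebraMap ℚ L) (algebraMap ℚ L) fun _ => rfl),
            coeffMap_qExpand, ← jqModC_rat, S28.coeffMap_jqModC, ← hembV,
            ← Polynomial.derivative_map, ← hWL] at h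
          exact h
      · obtain ⟨G₀, hG₀⟩ := hGu d b hd hb
        refine ⟨G₀.map (Polynomial.mapRingHom (algebraMap ℚ L)),
          derivative (W.map (Polynomial.mapRingHom (algebraMap R L))), ?_, ?_⟩
        · rw [Polynomial.derivative_map, ← hemb]
          intro h0
          apply hsimple
          rw [embL_injective R L (h0.trans (map_zero _).symm), map_zero]
        · have h := congrArg (coeffMap (algebraMap ℚ L)) hG₀
          rw [map_mul, map_eval₂_evP (algebraMap ℚ L) (coeffMap (algebraMap ℚ L))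
            (coeffMap_algebraMap' (algebraMap ℚ L) (algebraMap ℚ L) fun _ => rfl),
            map_eval₂_evP (algebraMap ℚ L) (coeffMap (algebraMap ℚ L))
            (coeffMap_algebraMap' (algebraMap ℚ L) (algebraMap ℚ L) fun _ => rfl),
            coeffMap_uB, ← jqModC_rat, S28.coeffMap_jqModC, ← hembV,
            ← Polynomial.derivative_map, ← hWL] at h
          exact h
  · intro u hu
    refine indep_baseChange (k₀ := ZMod ℓ) (jqModC (ZMod ℓ))
      (fun i => coeffMap (Int.castRingHom (ZMod ℓ)) V ^ (i : ℕ)) hind u ?_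
    rw [S28.coeffMap_jqModC, ← hu]
    refine Finset.sum_congr rfl fun i _ => ?_
    rw [map_pow, hredV]

end

end Fermat.Agent.G1.IG
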